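import Mathlib

/-!
# S25 / DEGREE (helper71): a finite-dimensional quotient maps onto its localization

`r : M → M'` a localization of `R`-modules at the powers of `x`, `P ⊆ M`, `P' ⊆ M'` submodules with
`r P ⊆ P'` and `x` injective on `M' / P'`.  If `M / P` is finite-dimensional over a field `K`,
then `M → M' / P'` is surjective.
-/

set_option autoImplicit false

namespace Fermat.Agent.S25.H71

open Module

theorem exists_sub_map_mem {K R : Type*} [Field K] [CommRing R] [Algebra K R] (x : R)
    {M M' : Type*} [AddCommGroup M] [Module R M] [Module K M] [IsScalarTower K R M]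
    [AddCommGroup M'] [Module R M']
    (r : M →ₗ[R] M') [IsLocalizedModule (Submonoid.powers x) r]
    (P : Submodule R M) (P' : Submodule R M') (hP : ∀ m ∈ P, r m ∈ P')
    (hx : ∀ w : M', x • w ∈ P' → w ∈ P')
    [Module.Finite K (M ⧸ P)] (w : M') : ∃ m : M, w - r m ∈ P' := by
  let T : Module.End K (M ⧸ P) := (LinearMap.lsmul R (M ⧸ P) x).restrictScalars K
  have hT : ∀ (j : ℕ) (m : M), (T ^ j) (Submodule.Quotient.mk m) =
      (Submodule.Quotient.mk (x ^ j • m) : M ⧸ P) := by
    intro j
    induction j with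
    | zero => intro m; simp
    | succ j ih =>
      intro m
      rw [pow_succ', Module.End.mul_apply, ih, pow_succ', mul_smul]
      rfl
  have hxpow : ∀ (j : ℕ) (w : M'), x ^ j • w ∈ P' → w ∈ P' := by
    intro j
    induction j with
    | zero => intro w hw; simpa using hw
    | succ j ih =>
      intro w hw
      rw [pow_succ', mul_smul] at hw
      exact ih w (hx _ hw)
  obtain ⟨k, hk⟩ := Filter.eventually_atTop.mp T.eventually_iInf_range_pow_eq
  obtain ⟨⟨m, ⟨_, n, rfl⟩⟩, hm⟩ := IsLocalizedModule.surj (Submonoid.powers x) r w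
  have hm' : x ^ n • w = r m := hm
  have h1 : (T ^ k) (Submodule.Quotient.mk m) ∈ LinearMap.range (T ^ (k + n)) := by
    rw [← hk (k + n) (Nat.le_add_right k n), hk k le_rfl]
    exact ⟨_, rfl⟩
  obtain ⟨q', hq'⟩ := h1
  obtain ⟨m', rfl⟩ := Submodule.Quotient.mk_surjective P q'
  rw [hT, hT] at hq'
  have h2 : x ^ (k + n) • m' - x ^ k • m ∈ P := (Submodule.Quotient.eq P).mp hq'
  have h3 := hP _ h2
  rw [map_sub, map_smul, map_smul, ← hm', smul_smul, ← pow_add, ← smul_sub] at h3
  have h4 := hxpow _ _ h3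
  refine ⟨m', ?_⟩
  have h5 : w - r m' = -(r m' - w) := by abel
  rw [h5]
  exact P'.neg_mem h4

end Fermat.Agent.S25.H71
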