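import Fermat.Agent.S25.H71.InvDom
import Fermat.Agent.S25.H71.LocSurj

/-!
# S25 / DEGREE (helper71): one chart of a morphism of gluing data

`R` a domain, `R' = R[1/x]`, `φ : N → N'` a nonzero map of invertible `R`-modules, with base change
`ψ : M → M'` over `R'` (`r : N → M`, `r' : N' → M'` base-change maps).  Then `ψ` is injective, the
cokernel `Q` of `φ` is finite-dimensional over `K` and maps onto the cokernel `Q'` of `ψ`.
-/

set_option autoImplicit false

namespace Fermat.Agent.S25.H71

open Module

section ChartLoc

variable {K R R' : Type*} [Field K] [CommRing R] [CommRing R'] [Algebra K R] [Algebra K R']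
  [Algebra R R']
  {N N' M M' : Type*} [AddCommGroup N] [Module R N] [AddCommGroup N'] [Module R N']
  [AddCommGroup M] [Module R' M] [Module R M] [IsScalarTower R R' M]
  [AddCommGroup M'] [Module R' M'] [Module R M'] [IsScalarTower R R' M']
  [Module K N'] [IsScalarTower K R N'] [Module K M'] [IsScalarTower K R' M']
  [IsScalarTower K R M']
  (r : N →ₗ[R] M) (r' : N' →ₗ[R] M') (hr : IsBaseChange R' r) (hr' : IsBaseChange R' r')
  (φ : N →ₗ[R] N') (ψ : M →ₗ[R'] M') (comm : ∀ s, ψ (r s) = r' (φ s))

include comm in
omit [Algebra K R] [Algebra K R'] [Module K N'] [IsScalarTower K R N'] [Module K M']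
  [IsScalarTower K R' M'] [IsScalarTower K R M'] [Field K] [IsScalarTower R R' M] in
/-- If `φ` is surjective, so is its base change `ψ`. -/
theorem surjective_of_surjective (hφ : Function.Surjective φ) (hr'' : IsBaseChange R' r') :
    Function.Surjective ψ := by
  rw [← LinearMap.range_eq_top, eq_top_iff]
  rintro w -
  induction w using hr''.inductionOn with
  | zero => exact Submodule.zero_mem _
  | tmul n' =>
    obtain ⟨n, rfl⟩ := hφ n'
    exact ⟨r n, comm n⟩
  | smul s w hw => exact Submodule.smul_mem _ s hw
  | add w₁ w₂ h₁ h₂ => exact Submodule.add_mem _ h₁ h₂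

include hr hr' comm in
omit [Algebra K R] [Algebra K R'] [Module K N'] [IsScalarTower K R N'] [Module K M']
  [IsScalarTower K R' M'] [IsScalarTower K R M'] [Field K] in
/-- If `φ` is injective, so is its localization `ψ`. -/
theorem injective_of_injective (x : R) [IsLocalization.Away x R']
    (hφ : Function.Injective φ) : Function.Injective ψ := by
  have h1 : IsLocalizedModule (Submonoid.powers x) r :=
    (isLocalizedModule_iff_isBaseChange (Submonoid.powers x) R' r).mpr hr
  have h2 : IsLocalizedModule (Submonoid.powers x) r' :=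
    (isLocalizedModule_iff_isBaseChange (Submonoid.powers x) R' r').mpr hr'
  rw [injective_iff_map_eq_zero]
  intro z hz
  obtain ⟨⟨s, t⟩, hs⟩ := IsLocalizedModule.surj (Submonoid.powers x) r z
  have hs' : (t : R) • z = r s := hs
  have h3 : r' (φ s) = 0 := by
    rw [← comm, ← hs', ← algebraMap_smul R' (t : R) z, map_smul, hz, smul_zero]
  obtain ⟨t', ht'⟩ := (IsLocalizedModule.eq_zero_iff (Submonoid.powers x) r').mp h3
  have h4 : φ ((t' : R) • s) = 0 := by rw [map_smul]; exact ht'
  have h5 : (t' : R) • s = 0 := hφ (by rw [h4, map_zero])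
  have h6 : (t' : R) • ((t : R) • z) = 0 := by rw [hs', ← map_smul, h5, map_zero]
  have h7 := IsLocalizedModule.smul_injective r t' (by
    show (t' : R) • ((t : R) • z) = (t' : R) • (0 : M)
    rw [h6, smul_zero])
  exact IsLocalizedModule.smul_injective r t (by
    show (t : R) • z = (t : R) • (0 : M)
    rw [h7, smul_zero])

include hr' comm in
omit [Algebra K R'] [Module K M'] [IsScalarTower K R' M'] [IsScalarTower K R M']
  [IsScalarTower R R' M] in
/-- Every element of `M'` is congruent modulo the range of `ψ` to an element coming from `N'`,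
if the cokernel of `φ` is finite-dimensional. -/
theorem exists_sub_mem_range (x : R) [IsLocalization.Away x R']
    [Module.Finite K (N' ⧸ LinearMap.range φ)] (w : M') :
    ∃ n' : N', w - r' n' ∈ LinearMap.range ψ := by
  have h2 : IsLocalizedModule (Submonoid.powers x) r' :=
    (isLocalizedModule_iff_isBaseChange (Submonoid.powers x) R' r').mpr hr'
  have key := exists_sub_map_mem (K := K) x r' (LinearMap.range φ)
    ((LinearMap.range ψ).restrictScalars R) (by
      rintro _ ⟨s, rfl⟩
      exact ⟨r s, comm s⟩) (by
      intro w hw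
      rw [Submodule.restrictScalars_mem] at hw ⊢
      have hu : IsUnit (algebraMap R R' x) := IsLocalization.Away.algebraMap_isUnit x
      obtain ⟨u, hu⟩ := hu
      have h3 : w = (↑u⁻¹ : R') • (x • w) := by
        rw [← algebraMap_smul R' x w, smul_smul, ← hu, Units.inv_mul, one_smul]
      rw [h3]
      exact Submodule.smul_mem _ _ hw) w
  obtain ⟨m, hm⟩ := key
  exact ⟨m, hm⟩

/-- The induced map on cokernels, as a `K`-linear map. -/
noncomputable def cokerLoc :
    (N' ⧸ LinearMap.range φ) →ₗ[K] (M' ⧸ LinearMap.range ψ) :=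
  ((LinearMap.range φ).liftQ
    (((LinearMap.range ψ).mkQ.restrictScalars R) ∘ₗ r') (by
      rintro _ ⟨s, rfl⟩
      rw [LinearMap.mem_ker]
      show (LinearMap.range ψ).mkQ (r' (φ s)) = 0
      rw [← comm]
      exact (Submodule.Quotient.mk_eq_zero _).mpr ⟨r s, rfl⟩)).restrictScalars K

include hr' in
omit [IsScalarTower R R' M] in
theorem cokerLoc_surjective (x : R) [IsLocalization.Away x R']
    [Module.Finite K (N' ⧸ LinearMap.range φ)] :
    Function.Surjective (cokerLoc (K := K) r r' φ ψ comm) := by
  intro z
  induction z using Submodule.Quotient.induction_on with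
  | _ w =>
    obtain ⟨n', hn'⟩ := exists_sub_mem_range (K := K) r r' hr' φ ψ comm x w
    refine ⟨Submodule.Quotient.mk n', ?_⟩
    show (Submodule.Quotient.mk (r' n') : M' ⧸ LinearMap.range ψ) = Submodule.Quotient.mk w
    rw [eq_comm, Submodule.Quotient.eq]
    exact hn'

end ChartLoc

end Fermat.Agent.S25.H71
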