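import Fermat.Agent.S25.H11.ACLeaves
import Fermat.Agent.S25.H11.GraphIdeal
import Fermat.Agent.S25.H431.Diagonal
import Fermat.Agent.S25.H207.ChartCor
import Fermat.Agent.S25.H207.TensorDomain

/-!
# S25 / ALGCHARTS, leaf PT-UNIQ (helper71): the Hilbert coordinates of a point are unique

`pointCond_unique` (skeleton statement) and `pointUnique : H11.Leaf.PointUnique k B₀ B₁ B₀₁`.

Route: two generators `s`, `s'` of `secq` span the same submodule of `N₀`, so
`(I · I_q) N₀ = (I' · I_q) N₀`; cancel the invertible module `N₀` and the invertible ideal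
`I_q = ∏ ker (ptHom (q i))` (graph ideals, `H11.graphIdeal_invertible`), then use that the
Hilbert chart is represented by `Rβ` (`H491.hilbChartEquiv`).
-/

set_option autoImplicit false

universe u

open scoped TensorProduct

namespace Fermat.Agent.S25.H71

open Fermat.Agent.S25 Fermat.Agent.S25.H11

section Cancel

variable {R : Type*} [CommRing R]

/-- An invertible module can be cancelled: `I N ≤ I' N → I ≤ I'`. -/
theorem ideal_le_of_smul_top_le {N : Type*} [AddCommGroup N] [Module R N]
    [Module.Invertible R N] {I I' : Ideal R}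
    (h : I • (⊤ : Submodule R N) ≤ I' • (⊤ : Submodule R N)) : I ≤ I' := by
  intro r hr
  have key : ∀ w ∈ I' • (⊤ : Submodule R N), ∀ t : Module.Dual R N, t w ∈ I' := by
    intro w hw t
    refine Submodule.smul_induction_on hw ?_ ?_
    · intro a ha n _
      rw [map_smul, smul_eq_mul]
      exact I'.mul_mem_right _ ha
    · intro w₁ w₂ h₁ h₂
      rw [map_add]
      exact I'.add_mem h₁ h₂
  have h2 : ∀ z : Module.Dual R N ⊗[R] N, r * contractLeft R N z ∈ I' := by
    intro z
    induction z using TensorProduct.induction_on with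
    | zero => simp
    | tmul t n =>
      rw [contractLeft_apply, ← smul_eq_mul, ← map_smul]
      exact key _ (h (Submodule.smul_mem_smul hr Submodule.mem_top)) t
    | add z₁ z₂ h₁ h₂ =>
      rw [map_add, mul_add]
      exact I'.add_mem h₁ h₂
  obtain ⟨z, hz⟩ := (Module.Invertible.bijective (R := R) (M := N)).2 1
  have := h2 z
  rwa [hz, mul_one] at this

theorem ideal_eq_of_smul_top_eq {N : Type*} [AddCommGroup N] [Module R N]
    [Module.Invertible R N] {I I' : Ideal R}
    (h : I • (⊤ : Submodule R N) = I' • (⊤ : Submodule R N)) : I = I' :=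
  le_antisymm (ideal_le_of_smul_top_le h.le) (ideal_le_of_smul_top_le h.ge)

/-- An ideal which is an invertible module can be cancelled in products of ideals. -/
theorem ideal_eq_of_mul_eq {P : Ideal R} [Module.Invertible R P] {I I' : Ideal R}
    (h : I * P = I' * P) : I = I' := by
  apply ideal_eq_of_smul_top_eq (N := P)
  apply Submodule.map_injective_of_injective (f := P.subtype) P.injective_subtype
  rw [Submodule.map_smul'', Submodule.map_smul'', Submodule.map_top, Submodule.range_subtype]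
  exact h

/-- Cancellable ideals. -/
def Cancellable (P : Ideal R) : Prop := ∀ I I' : Ideal R, I * P = I' * P → I = I'

theorem cancellable_prod {ι : Type*} (s : Finset ι) (P : ι → Ideal R)
    (h : ∀ i ∈ s, Cancellable (P i)) : Cancellable (∏ i ∈ s, P i) := by
  classical
  induction s using Finset.induction_on with
  | empty =>
    intro I I' hI
    simpa using hI
  | insert a s ha ih =>
    intro I I' hI
    rw [Finset.prod_insert ha, ← mul_assoc, ← mul_assoc] at hI
    have h1 := ih (fun i hi => h i (Finset.mem_insert_of_mem hi)) _ _ hI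
    exact h a (Finset.mem_insert_self a s) _ _ h1

end Cancel

section PtIdeal

variable {k : Type u} [Field k] [IsAlgClosed k]
  {B₀ B₁ B₀₁ : Type u} [CommRing B₀] [CommRing B₁] [CommRing B₀₁]
  [Algebra k B₀] [Algebra k B₁] [Algebra k B₀₁] [Algebra B₀ B₀₁] [Algebra B₁ B₀₁]
  [IsScalarTower k B₀ B₀₁] [IsScalarTower k B₁ B₀₁]
  {x : B₀} {y : B₁} {e : B₁ →ₐ[k] k}

/-- The diagonal of the first chart is an invertible ideal. -/
theorem diagonal_invertible_chart₀ (hC : IsCurveChart k B₀ B₁ B₀₁ x y e) :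
    Module.Invertible (B₀ ⊗[k] B₀) (KaehlerDifferential.ideal k B₀) := by
  have := hC.isDomain₀
  have := hC.omega₀
  have : Algebra.FiniteType k B₀ := H207.finiteType_chart₀ hC
  have : IsDomain (B₀ ⊗[k] B₀) := H207.isDomain_tensorProduct
  exact H431.diagonal_invertible k B₀

/-- The ideal of an `A`-valued point of the first chart is invertible. -/
theorem ker_ptHom_invertible (hC : IsCurveChart k B₀ B₁ B₀₁ x y e) (p : B₀ →ₐ[k] k)
    (A : Type u) [CommRing A] [Algebra k A] :
    Module.Invertible (A ⊗[k] B₀) (RingHom.ker (ptHom p A)) := by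
  have := diagonal_invertible_chart₀ hC
  exact H11.graphIdeal_invertible ((Algebra.ofId k A).comp p)

theorem cancellable_ptIdeal (hC : IsCurveChart k B₀ B₁ B₀₁ x y e) {m : ℕ}
    (q : Fin m → (B₀ →ₐ[k] k)) (A : Type u) [CommRing A] [Algebra k A] :
    Cancellable (ptIdeal q A) := by
  unfold ptIdeal
  refine cancellable_prod _ _ fun i _ => ?_
  intro I I' hI
  have := ker_ptHom_invertible hC (q i) A
  exact ideal_eq_of_mul_eq hI

end PtIdeal

section Unique

variable {k : Type u} [Field k] [IsAlgClosed k]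
  {B₀ B₁ B₀₁ : Type u} [CommRing B₀] [CommRing B₁] [CommRing B₀₁]
  [Algebra k B₀] [Algebra k B₁] [Algebra k B₀₁] [Algebra B₀ B₀₁] [Algebra B₁ B₀₁]
  [IsScalarTower k B₀ B₀₁] [IsScalarTower k B₁ B₀₁]
  {x : B₀} {y : B₁} {e : B₁ →ₐ[k] k}
  {A : Type u} [CommRing A] [Algebra k A]

omit [IsAlgClosed k] in
/-- Two generators of `secq` span the same submodule of `N₀`. -/
theorem span_fst_le_of_isGen {n m : ℕ} {q : Fin m → (B₀ →ₐ[k] k)}
    {G : CurveGD k B₀ B₁ B₀₁ A} {s s' : G.N₀ × G.N₁} (hs : IsGen x y n q G s)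
    (hs' : IsGen x y n q G s') :
    Submodule.span (A ⊗[k] B₀) {s'.1} ≤ Submodule.span (A ⊗[k] B₀) {s.1} := by
  obtain ⟨a, ha⟩ := hs.span s' hs'.mem
  rw [Submodule.span_singleton_le_iff_mem, ha]
  show a • s.1 ∈ Submodule.span (A ⊗[k] B₀) {s.1}
  rw [← algebraMap_smul (A ⊗[k] B₀) a s.1]
  exact Submodule.smul_mem _ _ (Submodule.mem_span_singleton_self _)

/-- **PT-UNIQ**: the Hilbert coordinates of a point are unique. -/
theorem pointCond_unique (hC : IsCurveChart k B₀ B₁ B₀₁ x y e) (i : ChartIndex k B₀)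
    {G : CurveGD k B₀ B₁ B₀₁ A} {φ₀ φ₀' : H491.Rβ k i.β →ₐ[k] A}
    (h : PointCond x y i G φ₀) (h' : PointCond x y i G φ₀') : φ₀ = φ₀' := by
  obtain ⟨s, hs, hspan⟩ := h.sect
  obtain ⟨s', hs', hspan'⟩ := h'.sect
  have hss : Submodule.span (A ⊗[k] B₀) {s.1} = Submodule.span (A ⊗[k] B₀) {s'.1} :=
    le_antisymm (span_fst_le_of_isGen hs' hs) (span_fst_le_of_isGen hs hs')
  rw [hspan, hspan'] at hss
  have := G.invertible₀
  have h1 := ideal_eq_of_smul_top_eq hss
  have h2 := cancellable_ptIdeal hC i.q A _ _ h1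
  apply (H491.hilbChartEquiv i.β A).injective
  apply Subtype.ext
  rw [H491.hilbChartEquiv_eq_map, H491.hilbChartEquiv_eq_map]
  exact h2

/-- **PT-UNIQ** as the frozen leaf `Prop`. -/
theorem pointUnique (k : Type u) [Field k] [IsAlgClosed k]
    (B₀ B₁ B₀₁ : Type u) [CommRing B₀] [CommRing B₁] [CommRing B₀₁]
    [Algebra k B₀] [Algebra k B₁] [Algebra k B₀₁] [Algebra B₀ B₀₁] [Algebra B₁ B₀₁]
    [IsScalarTower k B₀ B₀₁] [IsScalarTower k B₁ B₀₁] :
    H11.Leaf.PointUnique k B₀ B₁ B₀₁ :=
  fun _ _ _ hC i _ _ _ _ _ _ h h' => pointCond_unique hC i h h'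

end Unique

end Fermat.Agent.S25.H71
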