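import Mathlib

/-!
# S25 / DEGREE (helper71): maps between invertible modules over a domain

A nonzero linear map between invertible modules over a domain `R` is injective and its cokernel
is killed by a nonzero element of `R`; if `R ⧸ (f)` is finite over a field `K` for all `f ≠ 0`,
the cokernel is finite-dimensional over `K`.
-/

set_option autoImplicit false

namespace Fermat.Agent.S25.H71

open Module TensorProduct

section InvDom

variable {R : Type*} [CommRing R] {N N' : Type*} [AddCommGroup N] [Module R N]
  [AddCommGroup N'] [Module R N']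

/-- In an invertible module any two elements are proportional, via any linear form. -/
theorem dual_smul_comm [Module.Invertible R N] (t : Module.Dual R N) (n n₁ : N) :
    t n • n₁ = t n₁ • n := by
  have h := Module.Invertible.tmul_comm (R := R) (m₁ := n) (m₂ := n₁)
  have h2 := congrArg (TensorProduct.lift (LinearMap.lsmul R N ∘ₗ t)) h
  simpa using h2

variable [IsDomain R] [Module.Invertible R N] [Module.Invertible R N']

/-- A nonzero linear map between invertible modules over a domain is injective. -/
theorem injective_of_ne_zero (φ : N →ₗ[R] N') (hφ : φ ≠ 0) : Function.Injective φ := by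
  rw [injective_iff_map_eq_zero]
  intro n hn
  by_contra hne
  apply hφ
  obtain ⟨t, ht⟩ := Module.Projective.exists_dual_ne_zero R hne
  ext n₁
  have h1 : t n • φ n₁ = 0 := by
    rw [← map_smul, dual_smul_comm t n n₁, map_smul, hn, smul_zero]
  rcases smul_eq_zero.mp h1 with h | h
  · exact absurd h ht
  · simpa using h

theorem nontrivial_of_invertible (M : Type*) [AddCommGroup M] [Module R M]
    [Module.Invertible R M] : Nontrivial M := by
  by_contra h
  rw [not_nontrivial_iff_subsingleton] at h
  have h1 : (1 : R) • (0 : M) = (0 : R) • (0 : M) := by simp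
  have h2 : ∀ m : M, (1 : R) • m = (0 : R) • m := fun m => by
    rw [Subsingleton.elim m 0]; exact h1
  exact one_ne_zero (FaithfulSMul.eq_of_smul_eq_smul (M := R) (α := M) h2)

/-- There is a nonzero linear map between any two invertible modules over a domain. -/
theorem exists_linearMap_ne_zero : ∃ ψ : N' →ₗ[R] N, ψ ≠ 0 := by
  have hN : Nontrivial N := nontrivial_of_invertible (R := R) N
  have hN' : Nontrivial N' := nontrivial_of_invertible (R := R) N'
  obtain ⟨n, hn⟩ := exists_ne (0 : N)
  obtain ⟨n', hn'⟩ := exists_ne (0 : N')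
  obtain ⟨t, ht⟩ := Module.Projective.exists_dual_ne_zero R hn'
  refine ⟨(LinearMap.toSpanSingleton R N n) ∘ₗ t, fun h => ?_⟩
  have h1 := LinearMap.congr_fun h n'
  simp only [LinearMap.coe_comp, Function.comp_apply, LinearMap.toSpanSingleton_apply,
    LinearMap.zero_apply] at h1
  rcases smul_eq_zero.mp h1 with h | h
  · exact ht h
  · exact hn h

/-- The cokernel of a nonzero linear map between invertible modules over a domain is killed
by a nonzero element. -/
theorem exists_ne_zero_smul_mem_range (φ : N →ₗ[R] N') (hφ : φ ≠ 0) :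
    ∃ f : R, f ≠ 0 ∧ ∀ n' : N', f • n' ∈ LinearMap.range φ := by
  obtain ⟨ψ, hψ⟩ := exists_linearMap_ne_zero (R := R) (N := N) (N' := N')
  obtain ⟨f, hf⟩ := (Module.Invertible.toModuleEnd_bijective R N').surjective (φ ∘ₗ ψ)
  have hf' : ∀ n' : N', f • n' = φ (ψ n') := fun n' => by
    have := LinearMap.congr_fun hf n'
    simpa using this
  refine ⟨f, ?_, fun n' => ⟨ψ n', (hf' n').symm⟩⟩
  rintro rfl
  have hN' : Nontrivial N' := nontrivial_of_invertible (R := R) N'
  obtain ⟨n', hn'⟩ := exists_ne (0 : N')
  have h1 : φ (ψ n') = 0 := by rw [← hf', zero_smul]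
  have h2 : ψ n' = 0 := injective_of_ne_zero φ hφ (by rw [h1, map_zero])
  exact hn' (injective_of_ne_zero ψ hψ (by rw [h2, map_zero]))

end InvDom

section Finite

variable {K : Type*} [Field K] {R : Type*} [CommRing R] [Algebra K R]
  {Q : Type*} [AddCommGroup Q] [Module R Q] [Module K Q] [IsScalarTower K R Q]

/-- A finite `R`-module killed by `f`, with `R ⧸ (f)` finite over `K`, is finite over `K`. -/
theorem finite_of_smul_eq_zero [Module.Finite R Q] (f : R)
    [Module.Finite K (R ⧸ Ideal.span {f})] (hf : ∀ q : Q, f • q = 0) : Module.Finite K Q := by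
  have hQ : Module.IsTorsionBySet R Q (Ideal.span {f} : Ideal R) := by
    rw [← Module.isTorsionBySet_iff_is_torsion_by_span]
    rintro q ⟨a, ha⟩
    rw [Set.mem_singleton_iff] at ha
    subst ha
    exact hf q
  let _ : Module (R ⧸ Ideal.span {f}) Q := hQ.module
  have : IsScalarTower R (R ⧸ Ideal.span {f}) Q := hQ.isScalarTower
  have : Module.Finite (R ⧸ Ideal.span {f}) Q := Module.Finite.of_restrictScalars_finite R _ Q
  have : IsScalarTower K (R ⧸ Ideal.span {f}) Q := by
    refine IsScalarTower.of_algebraMap_smul fun r m => ?_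
    have h1 : algebraMap K (R ⧸ Ideal.span {f}) r =
        Ideal.Quotient.mk (Ideal.span {f}) (algebraMap K R r) := rfl
    rw [h1]
    have h2 : Ideal.Quotient.mk (Ideal.span {f}) (algebraMap K R r) • m =
        (algebraMap K R r) • m := hQ.mk_smul _ _
    rw [h2, algebraMap_smul]
  exact Module.Finite.trans (R ⧸ Ideal.span {f}) Q

end Finite

section Coker

variable {K : Type*} [Field K] {R : Type*} [CommRing R] [IsDomain R] [Algebra K R]
  {N N' : Type*} [AddCommGroup N] [Module R N] [AddCommGroup N'] [Module R N']
  [Module K N'] [IsScalarTower K R N']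
  [Module.Invertible R N] [Module.Invertible R N']

/-- The cokernel of a nonzero map of invertible modules is finite-dimensional over `K`,
if all `R ⧸ (f)`, `f ≠ 0`, are. -/
theorem finite_quotient_range_of_ne_zero
    (hfin : ∀ f : R, f ≠ 0 → Module.Finite K (R ⧸ Ideal.span {f}))
    (φ : N →ₗ[R] N') (hφ : φ ≠ 0) :
    Module.Finite K (N' ⧸ LinearMap.range φ) := by
  obtain ⟨f, hf0, hf⟩ := exists_ne_zero_smul_mem_range φ hφ
  have := hfin f hf0
  refine finite_of_smul_eq_zero (R := R) f fun q => ?_
  induction q using Submodule.Quotient.induction_on with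
  | _ n' =>
    rw [← Submodule.Quotient.mk_smul, Submodule.Quotient.mk_eq_zero]
    exact hf n'

end Coker

end Fermat.Agent.S25.H71
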