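import Fermat.Agent.S25.H11.ACDefs
import Fermat.Agent.S25.H490.ACPtIso

/-!
# S25 / ALGCHARTS / COVER (helper71): base change of sections with a divisor

`H490.SecDiv x y n G s J` (a section `s` of `G(n E₀)` not vanishing on `E₀` whose divisor on
`Spec (A ⊗ B₀)` is `J`) is stable under base change: `secDiv_of_baseChangeMaps`,
`secDiv_of_isBC`.  The point ideals base-change to point ideals: `map_ptIdeal`.
-/

set_option autoImplicit false
set_option linter.style.haveILetI false
set_option linter.unusedSectionVars false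

universe u

open scoped TensorProduct

namespace Fermat.Agent.S25.H71

open Fermat.Agent.S25 Fermat.Agent.S25.H11

/-! ### Semilinear base changes -/

section Semilinear

variable {R R' : Type u} [CommRing R] [CommRing R'] {ρ : R →+* R'}
  {N N' : Type u} [AddCommGroup N] [Module R N] [AddCommGroup N'] [Module R' N']

/-- The image of a semilinear base change generates the target. -/
theorem cov_span_range_eq_top {b : N →ₛₗ[ρ] N'} (hb : IsSemilinearBaseChange ρ b) :
    Submodule.span R' (Set.range b) = ⊤ := by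
  letI : Algebra R R' := ρ.toAlgebra
  letI : Module R N' := Module.compHom N' ρ
  haveI : IsScalarTower R R' N' := ⟨fun r r' n => by
    change (ρ r * r') • n = ρ r • (r' • n); rw [mul_smul]⟩
  rw [eq_top_iff]
  intro z _
  exact IsBaseChange.inductionOn hb z (fun z => z ∈ Submodule.span R' (Set.range b))
    (Submodule.zero_mem _) (fun m => Submodule.subset_span ⟨m, rfl⟩)
    (fun s n hn => Submodule.smul_mem _ s hn) (fun n₁ n₂ h₁ h₂ => Submodule.add_mem _ h₁ h₂)

/-- A submodule of the target of a semilinear base change containing the image is everything. -/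
theorem cov_eq_top_of_range_le {b : N →ₛₗ[ρ] N'} (hb : IsSemilinearBaseChange ρ b)
    (P : Submodule R' N') (h : ∀ n, b n ∈ P) : P = ⊤ := by
  rw [eq_top_iff, ← cov_span_range_eq_top hb, Submodule.span_le]
  rintro _ ⟨n, rfl⟩
  exact h n

/-- A semilinear map sends `J • ⊤` into `(J.map ρ) • ⊤`. -/
theorem cov_map_mem_smul_top (b : N →ₛₗ[ρ] N') (J : Ideal R) {n : N}
    (hn : n ∈ J • (⊤ : Submodule R N)) : b n ∈ (J.map ρ) • (⊤ : Submodule R' N') := by
  refine Submodule.smul_induction_on hn ?_ ?_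
  · intro r hr m _
    rw [b.map_smulₛₗ]
    exact Submodule.smul_mem_smul (Ideal.mem_map_of_mem ρ hr) Submodule.mem_top
  · intro m₁ m₂ h₁ h₂
    rw [map_add]
    exact Submodule.add_mem _ h₁ h₂

/-- Base change of the relation `span {s} = J • ⊤`. -/
theorem cov_span_singleton_eq_of_isSemilinearBaseChange {b : N →ₛₗ[ρ] N'}
    (hb : IsSemilinearBaseChange ρ b) {s : N} {J : Ideal R}
    (h : Submodule.span R {s} = J • (⊤ : Submodule R N)) :
    Submodule.span R' {b s} = (J.map ρ) • (⊤ : Submodule R' N') := by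
  apply le_antisymm
  · rw [Submodule.span_le, Set.singleton_subset_iff]
    apply cov_map_mem_smul_top b J
    rw [← h]
    exact Submodule.mem_span_singleton_self s
  · -- `{n' | ∀ r ∈ J.map ρ, r • n' ∈ span {b s}}` is everything
    have key : ∀ r ∈ J.map ρ, ∀ n' : N', r • n' ∈ Submodule.span R' {b s} := by
      intro r hr
      -- first for `r = ρ j`
      have h1 : ∀ j ∈ J, ∀ n' : N', ρ j • n' ∈ Submodule.span R' {b s} := by
        intro j hj n'
        have htop : n' ∈ (⊤ : Submodule R' N') := Submodule.mem_top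
        rw [← cov_span_range_eq_top hb] at htop
        refine Submodule.span_induction ?_ ?_ ?_ ?_ htop
        · rintro _ ⟨n, rfl⟩
          have hjn : j • n ∈ Submodule.span R {s} := by
            rw [h]
            exact Submodule.smul_mem_smul hj Submodule.mem_top
          obtain ⟨c, hc⟩ := Submodule.mem_span_singleton.mp hjn
          rw [← b.map_smulₛₗ, ← hc, b.map_smulₛₗ]
          exact Submodule.smul_mem _ _ (Submodule.mem_span_singleton_self _)
        · rw [smul_zero]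
          exact Submodule.zero_mem _
        · intro u v _ _ hu hv
          rw [smul_add]
          exact Submodule.add_mem _ hu hv
        · intro c u _ hu
          rw [smul_comm]
          exact Submodule.smul_mem _ _ hu
      intro n'
      have hr' : r ∈ Ideal.span (ρ '' (J : Set R)) := hr
      refine Submodule.span_induction ?_ ?_ ?_ ?_ hr'
      · rintro _ ⟨j, hj, rfl⟩
        exact h1 j hj n'
      · rw [zero_smul]
        exact Submodule.zero_mem _
      · intro u v _ _ hu hv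
        rw [add_smul]
        exact Submodule.add_mem _ hu hv
      · intro c u _ hu
        rw [smul_eq_mul, mul_smul]
        exact Submodule.smul_mem _ _ hu
    rw [Submodule.smul_le]
    intro r hr n' _
    exact key r hr n'

end Semilinear

section Curve

variable {k : Type u} [Field k] {B₀ B₁ B₀₁ : Type u} [CommRing B₀] [CommRing B₁] [CommRing B₀₁]
  [Algebra k B₀] [Algebra k B₁] [Algebra k B₀₁] [Algebra B₀ B₀₁] [Algebra B₁ B₀₁]
  [IsScalarTower k B₀ B₀₁] [IsScalarTower k B₁ B₀₁]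
  {x : B₀} {y : B₁} {e : B₁ →ₐ[k] k}
  {A A' : Type u} [CommRing A] [Algebra k A] [CommRing A'] [Algebra k A']

/-! ### Point ideals -/

theorem cov_tensorMapLeft_tmul (ψ : A →ₐ[k] A') (B : Type u) [CommRing B] [Algebra k B]
    (a : A) (b : B) : tensorMapLeft k ψ B (a ⊗ₜ[k] b) = ψ a ⊗ₜ[k] b := by
  simp [tensorMapLeft]

/-- The generators `1 ⊗ b - p b ⊗ 1` of the ideal of the point `p`. -/
def ptGen (p : B₀ →ₐ[k] k) (A : Type u) [CommRing A] [Algebra k A] (b : B₀) : A ⊗[k] B₀ :=
  (1 : A) ⊗ₜ[k] b - algebraMap k A (p b) ⊗ₜ[k] (1 : B₀)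

theorem sub_ptHom_mem_span (p : B₀ →ₐ[k] k) (z : A ⊗[k] B₀) :
    z - ptHom p A z ⊗ₜ[k] (1 : B₀) ∈ Ideal.span (Set.range (ptGen p A)) := by
  induction z using TensorProduct.induction_on with
  | zero => simp
  | tmul a b =>
    have : a ⊗ₜ[k] b - ptHom p A (a ⊗ₜ[k] b) ⊗ₜ[k] (1 : B₀) =
        (a ⊗ₜ[k] (1 : B₀)) * ptGen p A b := by
      rw [ptGen, mul_sub, Algebra.TensorProduct.tmul_mul_tmul,
        Algebra.TensorProduct.tmul_mul_tmul, mul_one, one_mul, mul_one, ptHom_tmul]
    rw [this]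
    exact Ideal.mul_mem_left _ _ (Ideal.subset_span ⟨b, rfl⟩)
  | add z₁ z₂ h₁ h₂ =>
    have : z₁ + z₂ - ptHom p A (z₁ + z₂) ⊗ₜ[k] (1 : B₀) =
        (z₁ - ptHom p A z₁ ⊗ₜ[k] (1 : B₀)) + (z₂ - ptHom p A z₂ ⊗ₜ[k] (1 : B₀)) := by
      rw [map_add, TensorProduct.add_tmul]
      ring
    rw [this]
    exact Ideal.add_mem _ h₁ h₂

/-- The ideal of a point is generated by the `1 ⊗ b - p b ⊗ 1`. -/
theorem ker_ptHom_eq_span (p : B₀ →ₐ[k] k) (A : Type u) [CommRing A] [Algebra k A] :
    RingHom.ker (ptHom p A) = Ideal.span (Set.range (ptGen p A)) := by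
  apply le_antisymm
  · intro z hz
    have h := sub_ptHom_mem_span p z
    rw [RingHom.mem_ker] at hz
    rwa [hz, TensorProduct.zero_tmul, sub_zero] at h
  · rw [Ideal.span_le]
    rintro _ ⟨b, rfl⟩
    rw [SetLike.mem_coe, RingHom.mem_ker, ptGen, map_sub, ptHom_tmul, ptHom_tmul, one_mul,
      map_one, map_one, mul_one, sub_self]

theorem cov_tensorMapLeft_ptGen (ψ : A →ₐ[k] A') (p : B₀ →ₐ[k] k) (b : B₀) :
    tensorMapLeft k ψ B₀ (ptGen p A b) = ptGen p A' b := by
  rw [ptGen, map_sub, cov_tensorMapLeft_tmul, cov_tensorMapLeft_tmul, map_one, AlgHom.commutes,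
    ptGen]

/-- Base change of the ideal of a point. -/
theorem map_ker_ptHom (ψ : A →ₐ[k] A') (p : B₀ →ₐ[k] k) :
    (RingHom.ker (ptHom p A)).map (tensorMapLeft k ψ B₀) = RingHom.ker (ptHom p A') := by
  rw [ker_ptHom_eq_span, ker_ptHom_eq_span, Ideal.map_span, ← Set.range_comp]
  congr 2
  funext b
  exact cov_tensorMapLeft_ptGen ψ p b

/-- Base change of the ideal of the divisor `Σ q i`. -/
theorem map_ptIdeal (ψ : A →ₐ[k] A') {m : ℕ} (q : Fin m → (B₀ →ₐ[k] k)) :
    (ptIdeal q A).map (tensorMapLeft k ψ B₀) = ptIdeal q A' := by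
  unfold ptIdeal
  have := map_prod (Ideal.mapHom (tensorMapLeft k ψ B₀)) (fun i => RingHom.ker (ptHom (q i) A))
    Finset.univ
  rw [Ideal.mapHom_apply] at this
  rw [this]
  refine Finset.prod_congr rfl fun i _ => ?_
  rw [Ideal.mapHom_apply]
  exact map_ker_ptHom ψ (q i)

/-- Base change of the universal chart ideal. -/
theorem map_map_univIdeal (ψ : A →ₐ[k] A') {g : ℕ} (β : Fin g → B₀)
    (φ₀ : H491.Rβ k β →ₐ[k] A) :
    ((H491.univIdeal (k := k) β).map (H491.bc B₀ φ₀)).map (tensorMapLeft k ψ B₀) =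
      (H491.univIdeal (k := k) β).map (H491.bc B₀ (ψ.comp φ₀)) := by
  rw [← H491.hilbChartEquiv_eq_map, ← H491.hilbChartEquiv_eq_map, H491.hilbChartEquiv_comp]
  rfl

/-- Base change of the divisor `univIdeal · I_q`. -/
theorem map_chartDivisor (ψ : A →ₐ[k] A') {m g : ℕ} (q : Fin m → (B₀ →ₐ[k] k))
    (β : Fin g → B₀) (φ₀ : H491.Rβ k β →ₐ[k] A) :
    ((H491.univIdeal (k := k) β).map (H491.bc B₀ φ₀) * ptIdeal q A).map
        (tensorMapLeft k ψ B₀) =
      (H491.univIdeal (k := k) β).map (H491.bc B₀ (ψ.comp φ₀)) * ptIdeal q A' := by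
  rw [Ideal.map_mul, map_map_univIdeal, map_ptIdeal]

/-- The universal chart ideal is its own pull-back along the identity. -/
theorem map_univIdeal_id {g : ℕ} (β : Fin g → B₀) :
    (H491.univIdeal (k := k) β).map (H491.bc B₀ (AlgHom.id k (H491.Rβ k β))) =
      H491.univIdeal (k := k) β := by
  rw [← H491.hilbChartEquiv_eq_map]
  rfl

/-! ### Sections -/

theorem cov_tensorMapLeft_xElt (ψ : A →ₐ[k] A') (x : B₀) :
    tensorMapLeft k ψ B₀₁ (xElt k B₀₁ A x) = xElt k B₀₁ A' x := by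
  simp [tensorMapLeft, xElt]

theorem cov_tensorMapLeft_yElt (ψ : A →ₐ[k] A') (y : B₁) :
    tensorMapLeft k ψ B₁ (yElt k A y) = yElt k A' y := by
  simp [tensorMapLeft, yElt]

/-- `GenModY` as an equality of submodules. -/
theorem genModY_iff {G : CurveGD k B₀ B₁ B₀₁ A} {b : G.N₁} :
    GenModY y G b ↔ Submodule.span (A ⊗[k] B₁) {b} ⊔
      (Ideal.span {yElt k A y} • ⊤ : Submodule (A ⊗[k] B₁) G.N₁) = ⊤ := by
  constructor
  · intro h
    rw [eq_top_iff]
    intro c _
    obtain ⟨r, hr⟩ := h c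
    have : c = r • b + (c - r • b) := by abel
    rw [this]
    exact Submodule.add_mem _
      (Submodule.mem_sup_left (Submodule.smul_mem _ _ (Submodule.mem_span_singleton_self b)))
      (Submodule.mem_sup_right hr)
  · intro h c
    have hc : c ∈ Submodule.span (A ⊗[k] B₁) {b} ⊔
        (Ideal.span {yElt k A y} • ⊤ : Submodule (A ⊗[k] B₁) G.N₁) := by
      rw [h]; exact Submodule.mem_top
    obtain ⟨w, hw, z, hz, rfl⟩ := Submodule.mem_sup.mp hc
    obtain ⟨r, rfl⟩ := Submodule.mem_span_singleton.mp hw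
    exact ⟨r, by rw [add_sub_cancel_left]; exact hz⟩

variable {G : CurveGD k B₀ B₁ B₀₁ A} {G' : CurveGD k B₀ B₁ B₀₁ A'}

/-- Base change of a section of the twist. -/
theorem mem_sec_of_baseChangeMaps (ψ : A →ₐ[k] A')
    (bm : GlueDatum.BaseChangeMaps (tensorMapLeft k ψ B₀) (tensorMapLeft k ψ B₁)
      (tensorMapLeft k ψ B₀₁) G G') (x : B₀) (n : ℕ) {s : G.N₀ × G.N₁} (hs : s ∈ sec x n G) :
    (bm.b₀ s.1, bm.b₁ s.2) ∈ sec x n G' := by
  rw [mem_sec] at hs ⊢
  show G'.r₀ (bm.b₀ s.1) = xElt k B₀₁ A' x ^ n • G'.r₁ (bm.b₁ s.2)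
  rw [← bm.comm₀, ← bm.comm₁, hs, LinearMap.map_smulₛₗ, map_pow, cov_tensorMapLeft_xElt]

/-- Base change of `GenModY`. -/
theorem genModY_of_baseChangeMaps (ψ : A →ₐ[k] A')
    (bm : GlueDatum.BaseChangeMaps (tensorMapLeft k ψ B₀) (tensorMapLeft k ψ B₁)
      (tensorMapLeft k ψ B₀₁) G G') (y : B₁) {b : G.N₁} (hb : GenModY y G b) :
    GenModY y G' (bm.b₁ b) := by
  rw [genModY_iff]
  apply cov_eq_top_of_range_le bm.isBaseChange₁
  intro c
  obtain ⟨r, hr⟩ := hb c
  have h1 := cov_map_mem_smul_top bm.b₁ _ hr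
  rw [Ideal.map_span, Set.image_singleton, cov_tensorMapLeft_yElt, map_sub,
    LinearMap.map_smulₛₗ] at h1
  have : bm.b₁ c = (tensorMapLeft k ψ B₁) r • bm.b₁ b +
      (bm.b₁ c - (tensorMapLeft k ψ B₁) r • bm.b₁ b) := by abel
  rw [this]
  exact Submodule.add_mem _
    (Submodule.mem_sup_left (Submodule.smul_mem _ _ (Submodule.mem_span_singleton_self _)))
    (Submodule.mem_sup_right h1)

/-- **Base change of a section with a divisor** (base-change-maps form). -/
theorem secDiv_of_baseChangeMaps (ψ : A →ₐ[k] A')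
    (bm : GlueDatum.BaseChangeMaps (tensorMapLeft k ψ B₀) (tensorMapLeft k ψ B₁)
      (tensorMapLeft k ψ B₀₁) G G') {n : ℕ} {s : G.N₀ × G.N₁} {J : Ideal (A ⊗[k] B₀)}
    (h : H490.SecDiv x y n G s J) :
    H490.SecDiv x y n G' (bm.b₀ s.1, bm.b₁ s.2) (J.map (tensorMapLeft k ψ B₀)) where
  mem := mem_sec_of_baseChangeMaps ψ bm x n h.mem
  gen := genModY_of_baseChangeMaps ψ bm y h.gen
  span := cov_span_singleton_eq_of_isSemilinearBaseChange bm.isBaseChange₀ h.span

/-- **Base change of a section with a divisor.** -/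
theorem secDiv_of_isBC {ψ : A →ₐ[k] A'} (hBC : CurveGD.IsBC ψ G G') {n : ℕ}
    {s : G.N₀ × G.N₁} {J : Ideal (A ⊗[k] B₀)} (h : H490.SecDiv x y n G s J) :
    ∃ s', H490.SecDiv x y n G' s' (J.map (tensorMapLeft k ψ B₀)) := by
  obtain ⟨bm⟩ := hBC
  exact ⟨_, secDiv_of_baseChangeMaps ψ bm h⟩

end Curve

end Fermat.Agent.S25.H71
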