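import Fermat.Agent.S25.H11.ACTop
import Fermat.Agent.S25.H71.ACSecBC

/-!
# S25 / ALGCHARTS / COVER, sub-leaf COV4 (helper71): formal assembly of `Leaf.Cover`

`cover_of`: the leaf `H11.Leaf.Cover` follows from the stage leaves `Stage0 … Stage4` and

* `CoverField` (COV1 + COV2): over an algebraically closed field every rigidifiable gluing
  datum of degree zero satisfies `P3` for some numeric chart index;
* `CoverUniv` (COV3): over the Hilbert chart ring `Rβ` there is a rigidifiable gluing datum of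
  degree zero carrying a section with divisor `univIdeal · I_q` which does not vanish on `E₀`
  (in the form `H490.SecDiv`).

Route.  `P3` for `G` over `K` gives Hilbert coordinates `φ₀ : Rβ → K`; the base change of the
universal datum `D₀` along `φ₀` and `G` carry sections with the same divisor, so they are
isomorphic (`H490.isIso_of_secDiv`, with the base change `secDiv_of_isBC`).  Openness of `P4`
(`H11.p4_crit`) gives `a ∈ Rβ` with `φ₀ a ≠ 0` such that all field points of `D(a)` are in the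
chart; the fibrewise criterion gives `P4` for the restriction `D` of `D₀` to `(Rβ)_a`.  The
universal section is then a unit multiple of the generator (`isUnit_of_genModY_smul`), hence a
generator itself, with Hilbert coordinates the canonical map `Rβ → (Rβ)_a`.
-/

set_option autoImplicit false
set_option linter.style.haveILetI false
set_option linter.unusedSectionVars false

universe u

open scoped TensorProduct

namespace Fermat.Agent.S25.H71

open Fermat.Agent.S25 Fermat.Agent.S25.H11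

section Unit

variable {k : Type u} [Field k] {B₀ B₁ B₀₁ : Type u} [CommRing B₀] [CommRing B₁] [CommRing B₀₁]
  [Algebra k B₀] [Algebra k B₁] [Algebra k B₀₁] [Algebra B₀ B₀₁] [Algebra B₁ B₀₁]
  [IsScalarTower k B₀ B₀₁] [IsScalarTower k B₁ B₀₁]
  {x : B₀} {y : B₁} {e : B₁ →ₐ[k] k}
  {A : Type u} [CommRing A] [Algebra k A]

theorem epsHom_yElt (he : e y = 0) : epsHom e A (yElt k A y) = 0 := by
  simp [epsHom, yElt, he]

/-- If `a • t` generates `N₁` modulo `y` and `G` is rigidifiable then `a` is a unit. -/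
theorem isUnit_of_genModY_smul (he : e y = 0) {G : CurveGD k B₀ B₁ B₀₁ A}
    (hrig : G.Rigidifiable e) (a : A) (t : G.N₁) (h : GenModY y G (a • t)) : IsUnit a := by
  obtain ⟨b, hb⟩ := hrig
  have hy : ∀ w ∈ (Ideal.span {yElt k A y} • ⊤ : Submodule (A ⊗[k] B₁) G.N₁), b w = 0 := by
    intro w hw
    have h1 := cov_map_mem_smul_top b _ hw
    rw [Ideal.map_span, Set.image_singleton] at h1
    have h0 : (epsHom e A).toRingHom (yElt k A y) = 0 := epsHom_yElt he
    rw [h0] at h1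
    have h2 : (Ideal.span {(0 : A)} • ⊤ : Submodule A A) = ⊥ := by
      rw [Ideal.span_singleton_zero, Submodule.bot_smul]
    rw [h2] at h1
    exact (Submodule.mem_bot A).mp h1
  have hat : b (a • t) = a * b t := by
    rw [← algebraMap_smul (A ⊗[k] B₁) a t, b.map_smulₛₗ, smul_eq_mul]
    congr 1
    exact (epsHom e A).commutes a
  have hmem : ∀ c : G.N₁, b c ∈ (Ideal.span {a} : Ideal A) := by
    intro c
    obtain ⟨r, hr⟩ := h c
    have h1 := hy _ hr
    rw [map_sub, sub_eq_zero, b.map_smulₛₗ, hat, smul_eq_mul] at h1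
    rw [h1, Ideal.mem_span_singleton']
    exact ⟨(epsHom e A).toRingHom r * b t, by ring⟩
  have htop : (Ideal.span {a} : Ideal A) = ⊤ := cov_eq_top_of_range_le hb _ hmem
  exact Ideal.span_singleton_eq_top.mp htop

/-- A section whose divisor is a multiple of `I_q` vanishes on `Σ q`. -/
theorem mem_vanq_of_span_eq {m : ℕ} {q : Fin m → (B₀ →ₐ[k] k)} {G : CurveGD k B₀ B₁ B₀₁ A}
    {a : G.N₀} {U : Ideal (A ⊗[k] B₀)}
    (h : Submodule.span (A ⊗[k] B₀) {a} =
      (U * ptIdeal q A) • (⊤ : Submodule (A ⊗[k] B₀) G.N₀)) : a ∈ vanq q G := by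
  have h1 : a ∈ Submodule.span (A ⊗[k] B₀) {a} := Submodule.mem_span_singleton_self _
  rw [h] at h1
  have hle : (U * ptIdeal q A) • (⊤ : Submodule (A ⊗[k] B₀) G.N₀) ≤
      ptIdeal q A • (⊤ : Submodule (A ⊗[k] B₀) G.N₀) :=
    Submodule.smul_mono_left Ideal.mul_le_right
  exact hle h1

/-- A section of `secq` not vanishing on `E₀` is a generator as soon as there is one
(for rigidifiable `G`). -/
theorem isGen_of_isGen (he : e y = 0) {G : CurveGD k B₀ B₁ B₀₁ A} (hrig : G.Rigidifiable e)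
    {n m : ℕ} {q : Fin m → (B₀ →ₐ[k] k)} {s s' : G.N₀ × G.N₁} (hs' : IsGen x y n q G s')
    (hs : s ∈ secq x n q G) (hgen : GenModY y G s.2) : IsGen x y n q G s := by
  obtain ⟨a', ha'⟩ := hs'.span s hs
  have hgen' : GenModY y G (a' • s'.2) := by
    have h := hgen
    rw [ha'] at h
    exact h
  obtain ⟨u, rfl⟩ := isUnit_of_genModY_smul he hrig a' s'.2 hgen'
  refine ⟨hs, fun t ht => ?_, hgen⟩
  obtain ⟨b, hb⟩ := hs'.span t ht
  refine ⟨b * ((u⁻¹ : Aˣ) : A), ?_⟩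
  rw [hb, ha', smul_smul, mul_assoc, Units.inv_mul, mul_one]

end Unit

section Assembly

variable (k : Type u) [Field k] (B₀ B₁ B₀₁ : Type u) [CommRing B₀] [CommRing B₁] [CommRing B₀₁]
  [Algebra k B₀] [Algebra k B₁] [Algebra k B₀₁] [Algebra B₀ B₀₁] [Algebra B₁ B₀₁]
  [IsScalarTower k B₀ B₀₁] [IsScalarTower k B₁ B₀₁]

/-- COV1 + COV2: over an algebraically closed field every rigidifiable gluing datum of degree
zero satisfies `P3` for some numeric chart index (the component `f` of the index is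
irrelevant). -/
def CoverField : Prop :=
  ∀ (x : B₀) (y : B₁) (e : B₁ →ₐ[k] k), IsCurveChart k B₀ B₁ B₀₁ x y e →
  ∀ (K : Type u) [Field K] [Algebra k K] [IsAlgClosed K] (G : CurveGD k B₀ B₁ B₀₁ K),
    G.Rigidifiable e → G.degree = 0 →
    ∃ i : ChartIndex k B₀, i.Numeric B₀₁ y ∧ P3 x y i.n i.q i.β G

/-- COV3: the universal datum over the Hilbert chart ring `Rβ`: a rigidifiable gluing datum of
degree zero with a section of the twist by `n E₀`, not vanishing on `E₀`, with divisor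
`univIdeal · I_q` (the component `f` of the index is irrelevant). -/
def CoverUniv : Prop :=
  ∀ (x : B₀) (y : B₁) (e : B₁ →ₐ[k] k), IsCurveChart k B₀ B₁ B₀₁ x y e →
  ∀ i : ChartIndex k B₀, i.Numeric B₀₁ y →
    ∃ D₀ : CurveGD k B₀ B₁ B₀₁ (H491.Rβ k i.β), D₀.Rigidifiable e ∧ D₀.Deg0 ∧
      ∃ s, H490.SecDiv x y i.n D₀ s
        (H491.univIdeal (k := k) i.β * ptIdeal i.q (H491.Rβ k i.β))

variable {k B₀ B₁ B₀₁}

section Steps

variable {A : Type u} [CommRing A] [Algebra k A] {x : B₀} {y : B₁} {e : B₁ →ₐ[k] k}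

/-- `P3` gives Hilbert coordinates. -/
theorem exists_secDiv_of_P3 {n m g : ℕ} {q : Fin m → (B₀ →ₐ[k] k)} {β : Fin g → B₀}
    {G : CurveGD k B₀ B₁ B₀₁ A} (h : P3 x y n q β G) :
    ∃ (φ₀ : H491.Rβ k β →ₐ[k] A) (s : G.N₀ × G.N₁), IsGen x y n q G s ∧
      Submodule.span (A ⊗[k] B₀) {s.1} =
        ((H491.univIdeal (k := k) β).map (H491.bc B₀ φ₀) * ptIdeal q A) •
          (⊤ : Submodule (A ⊗[k] B₀) G.N₀) := by
  obtain ⟨-, s, hs, I', hI', hspan⟩ := h
  obtain ⟨φ₀, hφ₀, -⟩ := H491.existsUnique_algHom_of_isChart hI'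
  have hφ₀' : (H491.univIdeal (k := k) β).map (H491.bc B₀ φ₀) = I' := hφ₀
  exact ⟨φ₀, s, hs, by rw [hφ₀']; exact hspan⟩

/-- A datum with Hilbert coordinates `φ₀` is the base change along `φ₀` of the universal
datum. -/
theorem isBC_of_secDiv [IsAlgClosed k] (hC : IsCurveChart k B₀ B₁ B₀₁ x y e)
    {n m g : ℕ} {q : Fin m → (B₀ →ₐ[k] k)} {β : Fin g → B₀}
    {D₀ : CurveGD k B₀ B₁ B₀₁ (H491.Rβ k β)} {sD : D₀.N₀ × D₀.N₁}
    (hsD : H490.SecDiv x y n D₀ sD (H491.univIdeal (k := k) β * ptIdeal q (H491.Rβ k β)))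
    {G : CurveGD k B₀ B₁ B₀₁ A} {φ₀ : H491.Rβ k β →ₐ[k] A} {s : G.N₀ × G.N₁}
    (hs : H490.SecDiv x y n G s
      ((H491.univIdeal (k := k) β).map (H491.bc B₀ φ₀) * ptIdeal q A)) :
    CurveGD.IsBC φ₀ D₀ G := by
  have hsD' : H490.SecDiv x y n D₀ sD
      ((H491.univIdeal (k := k) β).map (H491.bc B₀ (AlgHom.id k (H491.Rβ k β))) *
        ptIdeal q (H491.Rβ k β)) := by
    rw [map_univIdeal_id]; exact hsD
  obtain ⟨G₀, hG₀⟩ := H265.curveGD_exists_isBC φ₀ D₀
  obtain ⟨s₀, hs₀⟩ := secDiv_of_isBC hG₀ hsD'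
  rw [map_chartDivisor, AlgHom.comp_id] at hs₀
  exact H265.curveGD_isBC_of_isIso_right hG₀ (H490.isIso_of_secDiv hC hs₀ hs)

/-- The base change of the universal section is a generator with Hilbert coordinates the
base-change map, as soon as there is a generator. -/
theorem exists_isGen_of_isBC (he : e y = 0)
    {n m g : ℕ} {q : Fin m → (B₀ →ₐ[k] k)} {β : Fin g → B₀}
    {D₀ : CurveGD k B₀ B₁ B₀₁ (H491.Rβ k β)} {sD : D₀.N₀ × D₀.N₁}
    (hsD : H490.SecDiv x y n D₀ sD (H491.univIdeal (k := k) β * ptIdeal q (H491.Rβ k β)))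
    {D : CurveGD k B₀ B₁ B₀₁ A} {can : H491.Rβ k β →ₐ[k] A} (hD : CurveGD.IsBC can D₀ D)
    (hDr : D.Rigidifiable e) {s' : D.N₀ × D.N₁} (hs' : IsGen x y n q D s') :
    ∃ s, IsGen x y n q D s ∧ Submodule.span (A ⊗[k] B₀) {s.1} =
        ((H491.univIdeal (k := k) β).map (H491.bc B₀ can) * ptIdeal q A) •
          (⊤ : Submodule (A ⊗[k] B₀) D.N₀) := by
  have hsD' : H490.SecDiv x y n D₀ sD
      ((H491.univIdeal (k := k) β).map (H491.bc B₀ (AlgHom.id k (H491.Rβ k β))) *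
        ptIdeal q (H491.Rβ k β)) := by
    rw [map_univIdeal_id]; exact hsD
  obtain ⟨sc, hsc⟩ := secDiv_of_isBC hD hsD'
  rw [map_chartDivisor, AlgHom.comp_id] at hsc
  have hscq : sc ∈ secq x n q D := mem_secq.mpr ⟨hsc.mem, mem_vanq_of_span_eq hsc.span⟩
  exact ⟨sc, isGen_of_isGen he hDr hs' hscq hsc.gen, hsc.span⟩

end Steps

/-- **COV4**: the leaf `Cover` from the stage leaves, the field case and the universal datum. -/
theorem cover_of [IsAlgClosed k]
    (h0 : Leaf.Stage0 k B₀ B₁ B₀₁) (h1 : Leaf.Stage1 k B₀ B₁ B₀₁)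
    (h2 : Leaf.Stage2 k B₀ B₁ B₀₁) (h3 : Leaf.Stage3 k B₀ B₁ B₀₁)
    (h4 : Leaf.Stage4 k B₀ B₁ B₀₁)
    (hfield : CoverField k B₀ B₁ B₀₁) (huniv : CoverUniv k B₀ B₁ B₀₁) :
    Leaf.Cover k B₀ B₁ B₀₁ := by
  intro x y e hC K _ _ _ G hrig hdeg
  obtain ⟨⟨n, m, g, q, β, f⟩, hnum₀, hP3⟩ := hfield x y e hC K G hrig hdeg
  have hP1 : P1 x n q G := hP3.1
  obtain ⟨φ₀, s, hs, hspanG⟩ := exists_secDiv_of_P3 hP3
  -- the universal datum
  obtain ⟨D₀, hD₀r, hD₀d, sD, hsD⟩ := huniv x y e hC ⟨n, m, g, q, β, 1⟩ hnum₀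
  -- `G` is the base change of `D₀` along `φ₀`
  have hBC : CurveGD.IsBC φ₀ D₀ G :=
    isBC_of_secDiv hC hsD ⟨(mem_secq.mp hs.mem).1, hs.gen, hspanG⟩
  -- `G` is a point of the chart with `f = 1`
  have hP4 : P4 x y ⟨n, m, g, q, β, 1⟩ G :=
    ⟨φ₀, ⟨hP1, ⟨s, hs, hspanG⟩, by
      show IsUnit (φ₀ 1)
      rw [map_one]; exact isUnit_one⟩⟩
  -- openness
  obtain ⟨a, ha, hgood⟩ := (p4_crit hC h0 h1 h2 h3 h4 ⟨n, m, g, q, β, 1⟩ hnum₀).2 _ D₀ hD₀r hD₀d
    K φ₀ G hBC hP4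
  -- the chart
  obtain ⟨D, hD⟩ := H265.curveGD_exists_isBC (chartCan ⟨n, m, g, q, β, a⟩) D₀
  have hDr : D.Rigidifiable e := H265.rigidifiable_of_isBC hD hD₀r
  have hDd : D.Deg0 := H265.deg0_of_isBC hD hD₀d
  have hunit : IsUnit (chartCan (⟨n, m, g, q, β, a⟩ : ChartIndex k B₀) a) :=
    IsLocalization.Away.algebraMap_isUnit a
  -- `P4` for `D` by the fibrewise criterion
  obtain ⟨φ₀', hpc⟩ := (p4_crit hC h0 h1 h2 h3 h4 ⟨n, m, g, q, β, 1⟩ hnum₀).1 _ D hDr hDd
    (fun L _ _ θ₁ Gθ hGθ => hgood L (θ₁.comp (chartCan ⟨n, m, g, q, β, a⟩)) Gθ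
      (H265.curveGD_isBC_comp hD hGθ) (by
        rw [AlgHom.comp_apply]
        exact (hunit.map θ₁).ne_zero))
  -- the universal section over the chart
  obtain ⟨s', hs', -⟩ := hpc.sect
  obtain ⟨sc, hgen, hspan⟩ := exists_isGen_of_isBC hC.e_y hsD hD hDr hs'
  refine ⟨⟨n, m, g, q, β, a⟩, hnum₀, D, hDr, hDd, ⟨hpc.p1, ⟨sc, hgen, hspan⟩, hunit⟩, ?_⟩
  obtain ⟨φ, hφ⟩ := exists_lift_away a φ₀ ha
  exact ⟨φ, H265.curveGD_isBC_of_comp_eq hφ.symm hD hBC⟩

end Assembly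

end Fermat.Agent.S25.H71
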