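import Fermat.Agent.S25.H71.ACCover
import Fermat.Agent.S25.H911.ACCov3

/-!
# S25 / ALGCHARTS: the leaf `Cover` from the stage leaves (helper71)

`cover_of_stages : Stage0 → Stage1 → Stage2 → Stage3 → Stage4 → H11.Leaf.Cover k B₀ B₁ B₀₁`:
the two remaining inputs of `cover_of` are helper911's `H911.cov12'` (field case, COV1 + COV2)
and `H911.cov3_univ` (universal datum, COV3).

`cover_of_stages₂ : Stage0 → Stage1 → Stage2 → H11.Leaf.Cover k B₀ B₁ B₀₁`: the same with the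
openness of `P2` only (the universal section is automatically a generator with the canonical
Hilbert coordinates), so `Stage3`, `Stage4` are not needed for `Cover`.
-/

set_option autoImplicit false
set_option linter.style.haveILetI false
set_option linter.unusedSectionVars false

universe u

open scoped TensorProduct

namespace Fermat.Agent.S25.H71

open Fermat.Agent.S25 Fermat.Agent.S25.H11

variable {k : Type u} [Field k] [IsAlgClosed k]
  {B₀ B₁ B₀₁ : Type u} [CommRing B₀] [CommRing B₁] [CommRing B₀₁]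
  [Algebra k B₀] [Algebra k B₁] [Algebra k B₀₁] [Algebra B₀ B₀₁] [Algebra B₁ B₀₁]
  [IsScalarTower k B₀ B₀₁] [IsScalarTower k B₁ B₀₁]

/-- COV1 + COV2 (helper911, helper971). -/
theorem coverField : CoverField k B₀ B₁ B₀₁ := by
  intro x y e hC K _ _ _ G _ hdeg
  obtain ⟨i, hnum, -, -, hP3⟩ := H911.cov12' hC G hdeg
  exact ⟨i, hnum, hP3⟩

/-- COV3 (helper325, helper911). -/
theorem coverUniv : CoverUniv k B₀ B₁ B₀₁ := by
  intro x y e hC i hnum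
  obtain ⟨D, hr, hd, s, hs, hgen, hspan⟩ := H911.cov3_univ (e := e) hC i hnum
  exact ⟨D, hr, hd, s, ⟨hs, hgen, hspan⟩⟩

/-- **The leaf `Cover` from the stage leaves.** -/
theorem cover_of_stages
    (h0 : Leaf.Stage0 k B₀ B₁ B₀₁) (h1 : Leaf.Stage1 k B₀ B₁ B₀₁)
    (h2 : Leaf.Stage2 k B₀ B₁ B₀₁) (h3 : Leaf.Stage3 k B₀ B₁ B₀₁)
    (h4 : Leaf.Stage4 k B₀ B₁ B₀₁) : Leaf.Cover k B₀ B₁ B₀₁ :=
  cover_of h0 h1 h2 h3 h4 coverField coverUniv

/-- The fibrewise criterion and openness for `P2`, from the first three stages. -/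
theorem p2_crit {x : B₀} {y : B₁} {e : B₁ →ₐ[k] k} (hC : IsCurveChart k B₀ B₁ B₀₁ x y e)
    (h0 : Leaf.Stage0 k B₀ B₁ B₀₁) (h1 : Leaf.Stage1 k B₀ B₁ B₀₁)
    (h2 : Leaf.Stage2 k B₀ B₁ B₀₁) (i : ChartIndex k B₀) (hnum : i.Numeric B₀₁ y) :
    FibCrit e (fun A _ _ (G : CurveGD k B₀ B₁ B₀₁ A) => P2 x y i.n i.q G) ∧
      SpreadCrit e (fun A _ _ (G : CurveGD k B₀ B₁ B₀₁ A) => P2 x y i.n i.q G) := by
  have hL0 : ∀ (A : Type u) [CommRing A] [Algebra k A] (G : CurveGD k B₀ B₁ B₀₁ A),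
      G.Rigidifiable e → G.Deg0 → True →
        HasLocusAt (fun A _ _ (G : CurveGD k B₀ B₁ B₀₁ A) => P0 x i.n G) A G :=
    fun A _ _ G _ _ _ => h0 x y e hC i.n A G
  have f0 := fibCrit_step (e := e) (fun _ _ _ _ _ => trivial) (fibCrit_true e) hL0
  have s0 := spreadCrit_step (e := e) (fun _ _ _ _ _ => trivial) (fibCrit_true e)
    (spreadCrit_true e) hL0
  have hL1 : ∀ (A : Type u) [CommRing A] [Algebra k A] (G : CurveGD k B₀ B₁ B₀₁ A),
      G.Rigidifiable e → G.Deg0 → P0 x i.n G →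
        HasLocusAt (fun A _ _ (G : CurveGD k B₀ B₁ B₀₁ A) => P1 x i.n i.q G) A G :=
    fun A _ _ G _ _ hp => h1 x y e hC i.n i.q A G hp
  have f1 := fibCrit_step (e := e) (fun _ _ _ _ h => P1.p0 h) f0 hL1
  have s1 := spreadCrit_step (e := e) (fun _ _ _ _ h => P1.p0 h) f0 s0 hL1
  have hL2 : ∀ (A : Type u) [CommRing A] [Algebra k A] (G : CurveGD k B₀ B₁ B₀₁ A),
      G.Rigidifiable e → G.Deg0 → P1 x i.n i.q G →
        HasLocusAt (fun A _ _ (G : CurveGD k B₀ B₁ B₀₁ A) => P2 x y i.n i.q G) A G :=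
    fun A _ _ G hr hd hp => h2 x y e hC i hnum A G hr hd hp
  exact ⟨fibCrit_step (e := e) (fun _ _ _ _ h => P2.p1 h) f1 hL2,
    spreadCrit_step (e := e) (fun _ _ _ _ h => P2.p1 h) f1 s1 hL2⟩

/-- **COV4, sharp form**: the leaf `Cover` from the first three stage leaves, the field case
and the universal datum. -/
theorem cover_of₂
    (h0 : Leaf.Stage0 k B₀ B₁ B₀₁) (h1 : Leaf.Stage1 k B₀ B₁ B₀₁)
    (h2 : Leaf.Stage2 k B₀ B₁ B₀₁)
    (hfield : CoverField k B₀ B₁ B₀₁) (huniv : CoverUniv k B₀ B₁ B₀₁) :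
    Leaf.Cover k B₀ B₁ B₀₁ := by
  intro x y e hC K _ _ _ G hrig hdeg
  obtain ⟨⟨n, m, g, q, β, f⟩, hnum₀, hP3⟩ := hfield x y e hC K G hrig hdeg
  have hP2 : P2 x y n q G := P3.p2 hP3
  obtain ⟨φ₀, s, hs, hspanG⟩ := exists_secDiv_of_P3 hP3
  -- the universal datum
  obtain ⟨D₀, hD₀r, hD₀d, sD, hsD⟩ := huniv x y e hC ⟨n, m, g, q, β, 1⟩ hnum₀
  -- `G` is the base change of `D₀` along `φ₀`
  have hBC : CurveGD.IsBC φ₀ D₀ G :=
    isBC_of_secDiv hC hsD ⟨(mem_secq.mp hs.mem).1, hs.gen, hspanG⟩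
  -- openness of `P2`
  obtain ⟨a, ha, hgood⟩ := (p2_crit hC h0 h1 h2 ⟨n, m, g, q, β, 1⟩ hnum₀).2 _ D₀ hD₀r hD₀d
    K φ₀ G hBC hP2
  -- the chart
  obtain ⟨D, hD⟩ := H265.curveGD_exists_isBC (chartCan ⟨n, m, g, q, β, a⟩) D₀
  have hDr : D.Rigidifiable e := H265.rigidifiable_of_isBC hD hD₀r
  have hDd : D.Deg0 := H265.deg0_of_isBC hD hD₀d
  have hunit : IsUnit (chartCan (⟨n, m, g, q, β, a⟩ : ChartIndex k B₀) a) :=
    IsLocalization.Away.algebraMap_isUnit a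
  -- `P2` for `D` by the fibrewise criterion
  obtain ⟨hp1, s', hs'⟩ := (p2_crit hC h0 h1 h2 ⟨n, m, g, q, β, 1⟩ hnum₀).1 _ D hDr hDd
    (fun L _ _ θ₁ Gθ hGθ => hgood L (θ₁.comp (chartCan ⟨n, m, g, q, β, a⟩)) Gθ
      (H265.curveGD_isBC_comp hD hGθ) (by
        rw [AlgHom.comp_apply]
        exact (hunit.map θ₁).ne_zero))
  -- the universal section over the chart
  obtain ⟨sc, hgen, hspan⟩ := exists_isGen_of_isBC hC.e_y hsD hD hDr hs'
  refine ⟨⟨n, m, g, q, β, a⟩, hnum₀, D, hDr, hDd, ⟨hp1, ⟨sc, hgen, hspan⟩, hunit⟩, ?_⟩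
  obtain ⟨φ, hφ⟩ := exists_lift_away a φ₀ ha
  exact ⟨φ, H265.curveGD_isBC_of_comp_eq hφ.symm hD hBC⟩

/-- **The leaf `Cover` from the first three stage leaves.** -/
theorem cover_of_stages₂
    (h0 : Leaf.Stage0 k B₀ B₁ B₀₁) (h1 : Leaf.Stage1 k B₀ B₁ B₀₁)
    (h2 : Leaf.Stage2 k B₀ B₁ B₀₁) : Leaf.Cover k B₀ B₁ B₀₁ :=
  cover_of₂ h0 h1 h2 coverField coverUniv

end Fermat.Agent.S25.H71
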