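import Mathlib
import Fermat.Agent.S25.H10.RRLite

/-!
# S25 / DEGREE (helper71): Euler characteristic of a morphism of two-term complexes

Pure linear algebra over a field `K`.  For a commutative square

```
M  --d-->  N
|a         |b
M' --d'--> N'
```

with `a`, `b` injective and `ker d`, `coker d`, `coker a`, `coker b` finite-dimensional, the
kernel and cokernel of `d'` are finite-dimensional and
`χ(d') = χ(d) + dim coker a - dim coker b`.
-/

set_option autoImplicit false

namespace Fermat.Agent.S25.H71

open Module Submodule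

section ShortExact

variable {K : Type*} [Field K] {A B C : Type*} [AddCommGroup A] [AddCommGroup B]
  [AddCommGroup C] [Module K A] [Module K B] [Module K C]

/-- The middle term of a short exact sequence with finite-dimensional ends is
finite-dimensional. -/
theorem finite_of_exact (f : A →ₗ[K] B) (g : B →ₗ[K] C) (h : Function.Exact f g)
    [Module.Finite K A] [Module.Finite K C] : Module.Finite K B := by
  refine ⟨Submodule.fg_of_fg_map_of_fg_inf_ker g ?_ ?_⟩
  · exact IsNoetherian.noetherian _
  · rw [top_inf_eq, LinearMap.exact_iff.mp h, LinearMap.range_eq_map]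
    exact (Module.Finite.fg_top (R := K) (M := A)).map f

/-- Additivity of dimension in a short exact sequence. -/
theorem finrank_of_exact (f : A →ₗ[K] B) (g : B →ₗ[K] C) (hf : Function.Injective f)
    (hg : Function.Surjective g) (h : Function.Exact f g)
    [Module.Finite K A] [Module.Finite K C] :
    finrank K B = finrank K A + finrank K C := by
  have := finite_of_exact f g h
  have h1 := LinearMap.finrank_range_add_finrank_ker g
  rw [LinearMap.range_eq_top.mpr hg, finrank_top, LinearMap.exact_iff.mp h,
    LinearMap.finrank_range_of_inj hf] at h1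
  omega

end ShortExact

section Square

variable {K : Type*} [Field K] {M M' N N' : Type*} [AddCommGroup M] [AddCommGroup M']
  [AddCommGroup N] [AddCommGroup N'] [Module K M] [Module K M'] [Module K N] [Module K N']

/-- `N ⧸ range d → N' ⧸ range (b ∘ d)` induced by `b`. -/
def cokerMap (d : M →ₗ[K] N) (b : N →ₗ[K] N') :
    (N ⧸ LinearMap.range d) →ₗ[K] (N' ⧸ LinearMap.range (b ∘ₗ d)) :=
  Submodule.mapQ _ _ b (by
    rintro _ ⟨m, rfl⟩
    exact ⟨m, rfl⟩)

/-- `N' ⧸ range (b ∘ d) → N' ⧸ range b`. -/
def cokerProj (d : M →ₗ[K] N) (b : N →ₗ[K] N') :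
    (N' ⧸ LinearMap.range (b ∘ₗ d)) →ₗ[K] (N' ⧸ LinearMap.range b) :=
  Submodule.mapQ _ _ LinearMap.id (by
    rintro _ ⟨m, rfl⟩
    exact ⟨d m, rfl⟩)

theorem cokerMap_injective (d : M →ₗ[K] N) (b : N →ₗ[K] N') (hb : Function.Injective b) :
    Function.Injective (cokerMap d b) := by
  rw [injective_iff_map_eq_zero]
  intro x hx
  induction x using Submodule.Quotient.induction_on with
  | _ n =>
    have h1 : b n ∈ LinearMap.range (b ∘ₗ d) := by
      rw [← Submodule.Quotient.mk_eq_zero]
      exact hx
    obtain ⟨m, hm⟩ := h1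
    rw [Submodule.Quotient.mk_eq_zero]
    exact ⟨m, hb hm⟩

theorem cokerProj_surjective (d : M →ₗ[K] N) (b : N →ₗ[K] N') :
    Function.Surjective (cokerProj d b) := by
  intro x
  induction x using Submodule.Quotient.induction_on with
  | _ n => exact ⟨Submodule.Quotient.mk n, rfl⟩

theorem cokerMap_cokerProj_exact (d : M →ₗ[K] N) (b : N →ₗ[K] N') :
    Function.Exact (cokerMap d b) (cokerProj d b) := by
  intro x
  induction x using Submodule.Quotient.induction_on with
  | _ n' =>
    constructor
    · intro h
      have h1 : n' ∈ LinearMap.range b := by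
        rw [← Submodule.Quotient.mk_eq_zero]
        exact h
      obtain ⟨n, rfl⟩ := h1
      exact ⟨Submodule.Quotient.mk n, rfl⟩
    · rintro ⟨y, hy⟩
      induction y using Submodule.Quotient.induction_on with
      | _ n =>
        rw [← hy]
        show Submodule.Quotient.mk (b n) = (0 : N' ⧸ LinearMap.range b)
        rw [Submodule.Quotient.mk_eq_zero]
        exact ⟨n, rfl⟩

/-- **Euler characteristic of a morphism of two-term complexes.** -/
theorem euler_square (d : M →ₗ[K] N) (d' : M' →ₗ[K] N') (a : M →ₗ[K] M') (b : N →ₗ[K] N')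
    (hcomm : b ∘ₗ d = d' ∘ₗ a) (ha : Function.Injective a) (hb : Function.Injective b)
    [Module.Finite K (LinearMap.ker d)] [Module.Finite K (N ⧸ LinearMap.range d)]
    [Module.Finite K (M' ⧸ LinearMap.range a)] [Module.Finite K (N' ⧸ LinearMap.range b)] :
    Module.Finite K (LinearMap.ker d') ∧ Module.Finite K (N' ⧸ LinearMap.range d') ∧
      (finrank K (LinearMap.ker d') : ℤ) - finrank K (N' ⧸ LinearMap.range d') =
        (finrank K (LinearMap.ker d) : ℤ) - finrank K (N ⧸ LinearMap.range d) +
          finrank K (M' ⧸ LinearMap.range a) - finrank K (N' ⧸ LinearMap.range b) := by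
  -- step 1: the complex `b ∘ d`
  have hker : LinearMap.ker (b ∘ₗ d) = LinearMap.ker d :=
    LinearMap.ker_comp_of_ker_eq_bot d (LinearMap.ker_eq_bot.mpr hb)
  have hfin1 : Module.Finite K (N' ⧸ LinearMap.range (b ∘ₗ d)) :=
    finite_of_exact (cokerMap d b) (cokerProj d b) (cokerMap_cokerProj_exact d b)
  have hrk1 : finrank K (N' ⧸ LinearMap.range (b ∘ₗ d)) =
      finrank K (N ⧸ LinearMap.range d) + finrank K (N' ⧸ LinearMap.range b) :=
    finrank_of_exact (cokerMap d b) (cokerProj d b) (cokerMap_injective d b hb)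
      (cokerProj_surjective d b) (cokerMap_cokerProj_exact d b)
  have hfin0 : Module.Finite K (LinearMap.ker (b ∘ₗ d)) := by rw [hker]; infer_instance
  have hrk0 : finrank K (LinearMap.ker (b ∘ₗ d)) = finrank K (LinearMap.ker d) := by rw [hker]
  -- step 2: the modification `a`
  rw [hcomm] at hfin1 hrk1 hfin0 hrk0
  have hfinC : Module.Finite K (N' ⧸ LinearMap.range d') := by
    have hle : LinearMap.range (d' ∘ₗ a) ≤ LinearMap.range d' := LinearMap.range_comp_le_range a d'
    exact Module.Finite.of_surjective (Submodule.factor hle) (Submodule.factor_surjective hle)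
  have hfinK : Module.Finite K (LinearMap.ker d') := by
    refine ⟨Submodule.fg_of_fg_map_of_fg_inf_ker (H10.snakeβ a d') ?_ ?_⟩
    · exact IsNoetherian.noetherian _
    · rw [top_inf_eq, ← H10.range_snakeα, LinearMap.range_eq_map]
      exact (Module.Finite.fg_top (R := K) (M := LinearMap.ker (d' ∘ₗ a))).map _
  refine ⟨hfinK, hfinC, ?_⟩
  have h2 := H10.finrank_ker_add_finrank_coker a d' ha
  omega

/-- The same, with arbitrary models `Qa`, `Qb` of the cokernels of `a` and `b`. -/
theorem euler_square' (d : M →ₗ[K] N) (d' : M' →ₗ[K] N') (a : M →ₗ[K] M') (b : N →ₗ[K] N')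
    (hcomm : b ∘ₗ d = d' ∘ₗ a) (ha : Function.Injective a) (hb : Function.Injective b)
    {Qa Qb : Type*} [AddCommGroup Qa] [Module K Qa] [AddCommGroup Qb] [Module K Qb]
    (πa : M' →ₗ[K] Qa) (hπa : Function.Surjective πa) (hka : LinearMap.ker πa = LinearMap.range a)
    (πb : N' →ₗ[K] Qb) (hπb : Function.Surjective πb) (hkb : LinearMap.ker πb = LinearMap.range b)
    [Module.Finite K (LinearMap.ker d)] [Module.Finite K (N ⧸ LinearMap.range d)]
    [Module.Finite K Qa] [Module.Finite K Qb] :
    Module.Finite K (LinearMap.ker d') ∧ Module.Finite K (N' ⧸ LinearMap.range d') ∧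
      (finrank K (LinearMap.ker d') : ℤ) - finrank K (N' ⧸ LinearMap.range d') =
        (finrank K (LinearMap.ker d) : ℤ) - finrank K (N ⧸ LinearMap.range d) +
          finrank K Qa - finrank K Qb := by
  let ea : (M' ⧸ LinearMap.range a) ≃ₗ[K] Qa :=
    (Submodule.quotEquivOfEq _ _ hka.symm).trans (πa.quotKerEquivOfSurjective hπa)
  let eb : (N' ⧸ LinearMap.range b) ≃ₗ[K] Qb :=
    (Submodule.quotEquivOfEq _ _ hkb.symm).trans (πb.quotKerEquivOfSurjective hπb)
  have : Module.Finite K (M' ⧸ LinearMap.range a) := Module.Finite.equiv ea.symm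
  have : Module.Finite K (N' ⧸ LinearMap.range b) := Module.Finite.equiv eb.symm
  have h := euler_square d d' a b hcomm ha hb
  rw [ea.finrank_eq, eb.finrank_eq] at h
  exact h

end Square

end Fermat.Agent.S25.H71
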