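import Fermat.Agent.S25.DefsAlg
import Fermat.Agent.S25.H71.EulerLA
import Fermat.Agent.S25.H71.InvDom
import Fermat.Agent.S25.H71.LocSurj
import Fermat.Agent.S25.H71.ChartLoc

/-!
# S25 / DEGREE D3 + D5 (helper71): morphisms of gluing data over a field

`K` a field, `R₀ → R₀₁ ← R₁` a cospan of `K`-algebras with `R₀`, `R₁` domains,
`R₀₁ = R₀[1/x₀] = R₁[1/y₁]`, and `R_i ⧸ (f)` finite-dimensional over `K` for `f ≠ 0`.
For a morphism `φ = (φ₀, φ₁, φ₀₁) : G → G'` of gluing data with `φ₀₁ ≠ 0`: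

* `φ₀`, `φ₁`, `φ₀₁` are injective, with finite-dimensional cokernels `Q₀`, `Q₁`, `Q₀₁`;
* `dim Q₀₁ ≤ dim Q₀`, `dim Q₀₁ ≤ dim Q₁`;
* `χ(G') = χ(G) + dim Q₀ + dim Q₁ - dim Q₀₁` (**D3**), in particular `χ(G) ≤ χ(G')`;
* if `χ(G') = χ(G)` then `φ` is an isomorphism (**D5**).
-/

set_option autoImplicit false

universe u

namespace Fermat.Agent.S25.H71

open Fermat.Agent.S25 Module

section General

variable {A R₀ R₁ R₀₁ : Type u} [CommRing A] [CommRing R₀] [CommRing R₁] [CommRing R₀₁]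
  [Algebra A R₀] [Algebra A R₁] [Algebra A R₀₁] [Algebra R₀ R₀₁] [Algebra R₁ R₀₁]
  [IsScalarTower A R₀ R₀₁] [IsScalarTower A R₁ R₀₁]

/-- The module of sections over the overlap is invertible. -/
theorem invertible_N₀₁ (G : GlueDatum A R₀ R₁ R₀₁) : Module.Invertible R₀₁ G.N₀₁ := by
  have := G.invertible₀
  exact Module.Invertible.congr G.isBaseChange₀.equiv

variable (G G' : GlueDatum A R₀ R₁ R₀₁)
  (φ₀ : G.N₀ →ₗ[R₀] G'.N₀) (φ₁ : G.N₁ →ₗ[R₁] G'.N₁) (φ₀₁ : G.N₀₁ →ₗ[R₀₁] G'.N₀₁)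

include G G' in
theorem hom_ne_zero₀ (comm₀ : ∀ s, φ₀₁ (G.r₀ s) = G'.r₀ (φ₀ s)) (hφ : φ₀₁ ≠ 0) : φ₀ ≠ 0 := by
  rintro rfl
  apply hφ
  exact G.isBaseChange₀.algHom_ext φ₀₁ 0 (fun s => by rw [comm₀]; simp)

include G G' in
theorem hom_ne_zero₁ (comm₁ : ∀ s, φ₀₁ (G.r₁ s) = G'.r₁ (φ₁ s)) (hφ : φ₀₁ ≠ 0) : φ₁ ≠ 0 := by
  rintro rfl
  apply hφ
  exact G.isBaseChange₁.algHom_ext φ₀₁ 0 (fun s => by rw [comm₁]; simp)

end General

section Field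

variable {K R₀ R₁ R₀₁ : Type u} [Field K] [CommRing R₀] [CommRing R₁] [CommRing R₀₁]
  [Algebra K R₀] [Algebra K R₁] [Algebra K R₀₁] [Algebra R₀ R₀₁] [Algebra R₁ R₀₁]
  [IsScalarTower K R₀ R₀₁] [IsScalarTower K R₁ R₀₁] [IsDomain R₀] [IsDomain R₁]
  (x₀ : R₀) (y₁ : R₁) [IsLocalization.Away x₀ R₀₁] [IsLocalization.Away y₁ R₀₁]
  (hfin₀ : ∀ f : R₀, f ≠ 0 → Module.Finite K (R₀ ⧸ Ideal.span {f}))
  (hfin₁ : ∀ f : R₁, f ≠ 0 → Module.Finite K (R₁ ⧸ Ideal.span {f}))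
  (G G' : GlueDatum K R₀ R₁ R₀₁)
  (φ₀ : G.N₀ →ₗ[R₀] G'.N₀) (φ₁ : G.N₁ →ₗ[R₁] G'.N₁) (φ₀₁ : G.N₀₁ →ₗ[R₀₁] G'.N₀₁)
  (comm₀ : ∀ s, φ₀₁ (G.r₀ s) = G'.r₀ (φ₀ s)) (comm₁ : ∀ s, φ₀₁ (G.r₁ s) = G'.r₁ (φ₁ s))

include comm₀ in
omit [IsDomain R₁] in
theorem hom_injective₀ (hφ : φ₀₁ ≠ 0) : Function.Injective φ₀ := by
  have := G.invertible₀
  have := G'.invertible₀
  exact injective_of_ne_zero φ₀ (hom_ne_zero₀ G G' φ₀ φ₀₁ comm₀ hφ)

include comm₁ in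
omit [IsDomain R₀] in
theorem hom_injective₁ (hφ : φ₀₁ ≠ 0) : Function.Injective φ₁ := by
  have := G.invertible₁
  have := G'.invertible₁
  exact injective_of_ne_zero φ₁ (hom_ne_zero₁ G G' φ₁ φ₀₁ comm₁ hφ)

include comm₀ x₀ in
omit [IsDomain R₁] in
theorem hom_injective₀₁ (hφ : φ₀₁ ≠ 0) : Function.Injective φ₀₁ :=
  injective_of_injective G.r₀ G'.r₀ G.isBaseChange₀ G'.isBaseChange₀ φ₀ φ₀₁ comm₀ x₀
    (hom_injective₀ G G' φ₀ φ₀₁ comm₀ hφ)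

include comm₀ hfin₀ in
omit [IsDomain R₁] in
theorem hom_finite₀ (hφ : φ₀₁ ≠ 0) : Module.Finite K (G'.N₀ ⧸ LinearMap.range φ₀) := by
  have := G.invertible₀
  have := G'.invertible₀
  exact finite_quotient_range_of_ne_zero hfin₀ φ₀ (hom_ne_zero₀ G G' φ₀ φ₀₁ comm₀ hφ)

include comm₁ hfin₁ in
omit [IsDomain R₀] in
theorem hom_finite₁ (hφ : φ₀₁ ≠ 0) : Module.Finite K (G'.N₁ ⧸ LinearMap.range φ₁) := by
  have := G.invertible₁
  have := G'.invertible₁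
  exact finite_quotient_range_of_ne_zero hfin₁ φ₁ (hom_ne_zero₁ G G' φ₁ φ₀₁ comm₁ hφ)

include comm₀ hfin₀ x₀ in
omit [IsDomain R₁] in
theorem hom_finite₀₁ (hφ : φ₀₁ ≠ 0) : Module.Finite K (G'.N₀₁ ⧸ LinearMap.range φ₀₁) := by
  have := hom_finite₀ hfin₀ G G' φ₀ φ₀₁ comm₀ hφ
  exact Module.Finite.of_surjective (cokerLoc (K := K) G.r₀ G'.r₀ φ₀ φ₀₁ comm₀)
    (cokerLoc_surjective (K := K) G.r₀ G'.r₀ G'.isBaseChange₀ φ₀ φ₀₁ comm₀ x₀)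

include comm₀ hfin₀ x₀ in
omit [IsDomain R₁] in
theorem hom_finrank_le₀ (hφ : φ₀₁ ≠ 0) :
    finrank K (G'.N₀₁ ⧸ LinearMap.range φ₀₁) ≤ finrank K (G'.N₀ ⧸ LinearMap.range φ₀) := by
  have := hom_finite₀ hfin₀ G G' φ₀ φ₀₁ comm₀ hφ
  exact LinearMap.finrank_le_finrank_of_surjective
    (cokerLoc_surjective (K := K) G.r₀ G'.r₀ G'.isBaseChange₀ φ₀ φ₀₁ comm₀ x₀)

include comm₁ hfin₁ y₁ in
omit [IsDomain R₀] in
theorem hom_finrank_le₁ (hφ : φ₀₁ ≠ 0) :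
    finrank K (G'.N₀₁ ⧸ LinearMap.range φ₀₁) ≤ finrank K (G'.N₁ ⧸ LinearMap.range φ₁) := by
  have := hom_finite₁ hfin₁ G G' φ₁ φ₀₁ comm₁ hφ
  exact LinearMap.finrank_le_finrank_of_surjective
    (cokerLoc_surjective (K := K) G.r₁ G'.r₁ G'.isBaseChange₁ φ₁ φ₀₁ comm₁ y₁)

/-- The `K`-linear map induced by `(φ₀, φ₁)` on pairs of sections. -/
noncomputable def homPair : (G.N₀ × G.N₁) →ₗ[K] (G'.N₀ × G'.N₁) :=
  (φ₀.restrictScalars K).prodMap (φ₁.restrictScalars K)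

/-- The projection onto the product of the cokernels of `φ₀` and `φ₁`. -/
noncomputable def cokerPair :
    (G'.N₀ × G'.N₁) →ₗ[K]
      ((G'.N₀ ⧸ LinearMap.range φ₀) × (G'.N₁ ⧸ LinearMap.range φ₁)) :=
  ((LinearMap.range φ₀).mkQ.restrictScalars K).prodMap
    ((LinearMap.range φ₁).mkQ.restrictScalars K)

include comm₀ comm₁ in
omit [IsDomain R₀] [IsDomain R₁] in
theorem hom_comm :
    (φ₀₁.restrictScalars K) ∘ₗ G.cech = G'.cech ∘ₗ homPair G G' φ₀ φ₁ := by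
  apply LinearMap.ext
  rintro ⟨s₀, s₁⟩
  simp [GlueDatum.cech, homPair, comm₀, comm₁]

omit [IsDomain R₀] [IsDomain R₁] in
theorem ker_cokerPair :
    LinearMap.ker (cokerPair G G' φ₀ φ₁) = LinearMap.range (homPair G G' φ₀ φ₁) := by
  ext ⟨n₀, n₁⟩
  simp only [LinearMap.mem_ker, cokerPair, LinearMap.prodMap_apply, Prod.mk_eq_zero,
    LinearMap.coe_restrictScalars, Submodule.mkQ_apply, Submodule.Quotient.mk_eq_zero,
    LinearMap.mem_range, homPair, Prod.exists, Prod.mk.injEq]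
  constructor
  · rintro ⟨⟨a, ha⟩, ⟨b, hb⟩⟩
    exact ⟨a, b, ha, hb⟩
  · rintro ⟨a, b, ha, hb⟩
    exact ⟨⟨a, ha⟩, ⟨b, hb⟩⟩

include comm₀ comm₁ hfin₀ hfin₁ x₀ in
/-- **D3**: Euler characteristic of a modification. -/
theorem euler_hom (hφ : φ₀₁ ≠ 0) [Module.Finite K G.H0] [Module.Finite K G.H1] :
    Module.Finite K G'.H0 ∧ Module.Finite K G'.H1 ∧
      G'.euler = G.euler + finrank K (G'.N₀ ⧸ LinearMap.range φ₀) +
        finrank K (G'.N₁ ⧸ LinearMap.range φ₁) - finrank K (G'.N₀₁ ⧸ LinearMap.range φ₀₁) := by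
  have f0 := hom_finite₀ hfin₀ G G' φ₀ φ₀₁ comm₀ hφ
  have f1 := hom_finite₁ hfin₁ G G' φ₁ φ₀₁ comm₁ hφ
  have f01 := hom_finite₀₁ x₀ hfin₀ G G' φ₀ φ₀₁ comm₀ hφ
  have ha : Function.Injective (homPair G G' φ₀ φ₁) :=
    Function.Injective.prodMap (hom_injective₀ G G' φ₀ φ₀₁ comm₀ hφ)
      (hom_injective₁ G G' φ₁ φ₀₁ comm₁ hφ)
  have hb : Function.Injective (φ₀₁.restrictScalars K) :=
    hom_injective₀₁ x₀ G G' φ₀ φ₀₁ comm₀ hφ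
  have hπa : Function.Surjective (cokerPair G G' φ₀ φ₁) := by
    rintro ⟨z₀, z₁⟩
    obtain ⟨w₀, rfl⟩ := Submodule.mkQ_surjective (LinearMap.range φ₀) z₀
    obtain ⟨w₁, rfl⟩ := Submodule.mkQ_surjective (LinearMap.range φ₁) z₁
    exact ⟨(w₀, w₁), rfl⟩
  have hπb : Function.Surjective ((LinearMap.range φ₀₁).mkQ.restrictScalars K) := by
    intro z
    obtain ⟨w, rfl⟩ := Submodule.mkQ_surjective (LinearMap.range φ₀₁) z
    exact ⟨w, rfl⟩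
  have hkb : LinearMap.ker ((LinearMap.range φ₀₁).mkQ.restrictScalars K) =
      LinearMap.range (φ₀₁.restrictScalars K) := by
    ext w
    simp
  have key := euler_square' (K := K) G.cech G'.cech (homPair G G' φ₀ φ₁)
    (φ₀₁.restrictScalars K) (hom_comm G G' φ₀ φ₁ φ₀₁ comm₀ comm₁) ha hb
    (cokerPair G G' φ₀ φ₁) hπa (ker_cokerPair G G' φ₀ φ₁)
    ((LinearMap.range φ₀₁).mkQ.restrictScalars K) hπb hkb
  obtain ⟨h1, h2, h3⟩ := key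
  refine ⟨h1, h2, ?_⟩
  rw [Module.finrank_prod] at h3
  unfold GlueDatum.euler
  push_cast at h3
  linarith

include comm₀ comm₁ hfin₀ hfin₁ x₀ in
/-- A nonzero morphism does not decrease the Euler characteristic. -/
theorem euler_le_of_hom (hφ : φ₀₁ ≠ 0) [Module.Finite K G.H0] [Module.Finite K G.H1] :
    G.euler ≤ G'.euler := by
  obtain ⟨-, -, h⟩ := euler_hom x₀ hfin₀ hfin₁ G G' φ₀ φ₁ φ₀₁ comm₀ comm₁ hφ
  have h0 := hom_finrank_le₀ x₀ hfin₀ G G' φ₀ φ₀₁ comm₀ hφ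
  rw [h]
  have : (finrank K (G'.N₀₁ ⧸ LinearMap.range φ₀₁) : ℤ) ≤
      finrank K (G'.N₀ ⧸ LinearMap.range φ₀) := by exact_mod_cast h0
  have h1 : (0 : ℤ) ≤ finrank K (G'.N₁ ⧸ LinearMap.range φ₁) := Int.natCast_nonneg _
  linarith

include comm₀ comm₁ hfin₀ hfin₁ x₀ y₁ in
/-- **D5**: a nonzero morphism between gluing data with the same Euler characteristic is
bijective on both charts and on the overlap. -/
theorem hom_bijective_of_euler_eq (hφ : φ₀₁ ≠ 0) [Module.Finite K G.H0]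
    [Module.Finite K G.H1] (he : G'.euler = G.euler) :
    Function.Bijective φ₀ ∧ Function.Bijective φ₁ ∧ Function.Bijective φ₀₁ := by
  obtain ⟨-, -, h⟩ := euler_hom x₀ hfin₀ hfin₁ G G' φ₀ φ₁ φ₀₁ comm₀ comm₁ hφ
  have h0 := hom_finrank_le₀ x₀ hfin₀ G G' φ₀ φ₀₁ comm₀ hφ
  have h1 := hom_finrank_le₁ y₁ hfin₁ G G' φ₁ φ₀₁ comm₁ hφ
  have f0 := hom_finite₀ hfin₀ G G' φ₀ φ₀₁ comm₀ hφ
  have f1 := hom_finite₁ hfin₁ G G' φ₁ φ₀₁ comm₁ hφ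
  rw [he] at h
  have e0 : finrank K (G'.N₀ ⧸ LinearMap.range φ₀) = 0 := by omega
  have e1 : finrank K (G'.N₁ ⧸ LinearMap.range φ₁) = 0 := by omega
  have s0 : Function.Surjective φ₀ := by
    rw [← LinearMap.range_eq_top, ← Submodule.Quotient.subsingleton_iff]
    exact Module.finrank_zero_iff.mp e0
  have s1 : Function.Surjective φ₁ := by
    rw [← LinearMap.range_eq_top, ← Submodule.Quotient.subsingleton_iff]
    exact Module.finrank_zero_iff.mp e1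
  refine ⟨⟨hom_injective₀ G G' φ₀ φ₀₁ comm₀ hφ, s0⟩,
    ⟨hom_injective₁ G G' φ₁ φ₀₁ comm₁ hφ, s1⟩,
    ⟨hom_injective₀₁ x₀ G G' φ₀ φ₀₁ comm₀ hφ, ?_⟩⟩
  exact surjective_of_surjective G.r₀ G'.r₀ φ₀ φ₀₁ comm₀ s0 G'.isBaseChange₀

include comm₀ comm₁ hfin₀ hfin₁ x₀ y₁ in
/-- **D5**, packaged: a nonzero morphism between gluing data with the same Euler
characteristic is an isomorphism. -/
theorem isIso_of_euler_eq (hφ : φ₀₁ ≠ 0) [Module.Finite K G.H0] [Module.Finite K G.H1]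
    (he : G'.euler = G.euler) : G.IsIso G' := by
  obtain ⟨b0, b1, b01⟩ :=
    hom_bijective_of_euler_eq x₀ y₁ hfin₀ hfin₁ G G' φ₀ φ₁ φ₀₁ comm₀ comm₁ hφ he
  exact ⟨{ e₀ := LinearEquiv.ofBijective φ₀ b0
           e₁ := LinearEquiv.ofBijective φ₁ b1
           e₀₁ := LinearEquiv.ofBijective φ₀₁ b01
           comm₀ := comm₀
           comm₁ := comm₁ }⟩

end Field

end Fermat.Agent.S25.H71
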