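import Fermat.Agent.S25.H71.Degree

/-!
# S25 / DEGREE D5 (helper71): sections of gluing data over a field

A section `s = (s₀, s₁) ∈ Ȟ⁰(G)` is a morphism `unit → G`.  If it is nonzero then
`deg G = dim N₀/R₀ s₀ + dim N₁/R₁ s₁ - dim N₀₁/R₀₁ s₀₁ ≥ 0`, and if `deg G = 0` then `s` generates
`G`, so `G ≅ unit`.
-/

set_option autoImplicit false

universe u

namespace Fermat.Agent.S25.H71

open Fermat.Agent.S25 Module

section General

variable {A R₀ R₁ R₀₁ : Type u} [CommRing A] [CommRing R₀] [CommRing R₁] [CommRing R₀₁]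
  [Algebra A R₀] [Algebra A R₁] [Algebra A R₀₁] [Algebra R₀ R₀₁] [Algebra R₁ R₀₁]
  [IsScalarTower A R₀ R₀₁] [IsScalarTower A R₁ R₀₁]
  (G : GlueDatum A R₀ R₁ R₀₁) (s : G.N₀ × G.N₁)

/-- `r ↦ r • s₀`, as a map from the unit datum. -/
noncomputable def secHom₀ : (GlueDatum.unit A R₀ R₁ R₀₁).N₀ →ₗ[R₀] G.N₀ :=
  LinearMap.toSpanSingleton R₀ G.N₀ s.1

/-- `r ↦ r • s₁`, as a map from the unit datum. -/
noncomputable def secHom₁ : (GlueDatum.unit A R₀ R₁ R₀₁).N₁ →ₗ[R₁] G.N₁ :=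
  LinearMap.toSpanSingleton R₁ G.N₁ s.2

/-- `r ↦ r • s₀|₀₁`, as a map from the unit datum. -/
noncomputable def secHom₀₁ : (GlueDatum.unit A R₀ R₁ R₀₁).N₀₁ →ₗ[R₀₁] G.N₀₁ :=
  LinearMap.toSpanSingleton R₀₁ G.N₀₁ (G.r₀ s.1)

theorem secHom₀_apply (a : R₀) : secHom₀ G s a = a • s.1 := rfl

theorem secHom₁_apply (a : R₁) : secHom₁ G s a = a • s.2 := rfl

theorem secHom₀₁_apply (a : R₀₁) : secHom₀₁ G s a = a • G.r₀ s.1 := rfl

theorem mem_H0_iff : s ∈ G.H0 ↔ G.r₀ s.1 = G.r₁ s.2 := by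
  rw [LinearMap.mem_ker]
  simp only [GlueDatum.cech, LinearMap.coprod_apply, LinearMap.coe_restrictScalars,
    LinearMap.neg_apply]
  rw [← sub_eq_add_neg, sub_eq_zero]

theorem secHom_comm₀ (a : (GlueDatum.unit A R₀ R₁ R₀₁).N₀) :
    secHom₀₁ G s ((GlueDatum.unit A R₀ R₁ R₀₁).r₀ a) = G.r₀ (secHom₀ G s a) := by
  show (algebraMap R₀ R₀₁ a) • G.r₀ s.1 = G.r₀ (a • s.1)
  rw [map_smul, algebraMap_smul]
  rfl

theorem secHom_comm₁ (hs : s ∈ G.H0) (a : (GlueDatum.unit A R₀ R₁ R₀₁).N₁) :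
    secHom₀₁ G s ((GlueDatum.unit A R₀ R₁ R₀₁).r₁ a) = G.r₁ (secHom₁ G s a) := by
  show (algebraMap R₁ R₀₁ a) • G.r₀ s.1 = G.r₁ (a • s.2)
  rw [map_smul, algebraMap_smul, (mem_H0_iff G s).mp hs]
  rfl

theorem secHom₀₁_ne_zero (h : G.r₀ s.1 ≠ 0) : secHom₀₁ G s ≠ 0 := by
  intro h0
  apply h
  have := LinearMap.congr_fun h0 (1 : R₀₁)
  rw [secHom₀₁_apply, one_smul] at this
  exact this

theorem range_secHom₀ : LinearMap.range (secHom₀ G s) = Submodule.span R₀ {s.1} := by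
  unfold secHom₀
  exact (LinearMap.span_singleton_eq_range R₀ G.N₀ s.1).symm

theorem range_secHom₁ : LinearMap.range (secHom₁ G s) = Submodule.span R₁ {s.2} := by
  unfold secHom₁
  exact (LinearMap.span_singleton_eq_range R₁ G.N₁ s.2).symm

end General

section Field

variable {K R₀ R₁ R₀₁ : Type u} [Field K] [CommRing R₀] [CommRing R₁] [CommRing R₀₁]
  [Algebra K R₀] [Algebra K R₁] [Algebra K R₀₁] [Algebra R₀ R₀₁] [Algebra R₁ R₀₁]
  [IsScalarTower K R₀ R₀₁] [IsScalarTower K R₁ R₀₁] [IsDomain R₀] [IsDomain R₁]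
  (x₀ : R₀) (y₁ : R₁) [IsLocalization.Away x₀ R₀₁] [IsLocalization.Away y₁ R₀₁]
  (hfin₀ : ∀ f : R₀, f ≠ 0 → Module.Finite K (R₀ ⧸ Ideal.span {f}))
  (hfin₁ : ∀ f : R₁, f ≠ 0 → Module.Finite K (R₁ ⧸ Ideal.span {f}))
  (G : GlueDatum K R₀ R₁ R₀₁) (s : G.N₀ × G.N₁)

include x₀ in
omit [IsDomain R₁] in
/-- The restriction map to the overlap is injective. -/
theorem r₀_injective (hx₀ : x₀ ≠ 0) : Function.Injective G.r₀ := by
  have := G.invertible₀
  have h1 : IsLocalizedModule (Submonoid.powers x₀) G.r₀ :=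
    (isLocalizedModule_iff_isBaseChange (Submonoid.powers x₀) R₀₁ G.r₀).mpr G.isBaseChange₀
  rw [injective_iff_map_eq_zero]
  intro m hm
  obtain ⟨⟨t, n, rfl⟩, ht⟩ := (IsLocalizedModule.eq_zero_iff (Submonoid.powers x₀) G.r₀).mp hm
  have ht' : x₀ ^ n • m = 0 := ht
  rcases smul_eq_zero.mp ht' with h | h
  · exact absurd h (pow_ne_zero n hx₀)
  · exact h

include y₁ in
omit [IsDomain R₀] in
/-- The restriction map to the overlap is injective. -/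
theorem r₁_injective (hy₁ : y₁ ≠ 0) : Function.Injective G.r₁ := by
  have := G.invertible₁
  have h1 : IsLocalizedModule (Submonoid.powers y₁) G.r₁ :=
    (isLocalizedModule_iff_isBaseChange (Submonoid.powers y₁) R₀₁ G.r₁).mpr G.isBaseChange₁
  rw [injective_iff_map_eq_zero]
  intro m hm
  obtain ⟨⟨t, n, rfl⟩, ht⟩ := (IsLocalizedModule.eq_zero_iff (Submonoid.powers y₁) G.r₁).mp hm
  have ht' : y₁ ^ n • m = 0 := ht
  rcases smul_eq_zero.mp ht' with h | h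
  · exact absurd h (pow_ne_zero n hy₁)
  · exact h

include x₀ y₁ in
/-- A nonzero section is nonzero on the overlap. -/
theorem r₀_ne_zero_of_ne_zero (hx₀ : x₀ ≠ 0) (hy₁ : y₁ ≠ 0) (hs : s ∈ G.H0) (hs0 : s ≠ 0) :
    G.r₀ s.1 ≠ 0 := by
  intro h
  apply hs0
  have h1 : s.1 = 0 := r₀_injective x₀ G hx₀ (by rw [h, map_zero])
  have h2 : s.2 = 0 := r₁_injective y₁ G hy₁ (by
    rw [← (mem_H0_iff G s).mp hs, h, map_zero])
  exact Prod.ext h1 h2

include x₀ hfin₀ hfin₁ in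
/-- **D5**: the degree of a gluing datum with a nonzero section is the degree of the divisor
of the section. -/
theorem degree_eq_of_section (hs : s ∈ G.H0) (hs0 : G.r₀ s.1 ≠ 0)
    [Module.Finite K (GlueDatum.unit K R₀ R₁ R₀₁).H0]
    [Module.Finite K (GlueDatum.unit K R₀ R₁ R₀₁).H1] :
    Module.Finite K G.H0 ∧ Module.Finite K G.H1 ∧
      G.degree = finrank K (G.N₀ ⧸ Submodule.span R₀ {s.1}) +
        finrank K (G.N₁ ⧸ Submodule.span R₁ {s.2}) -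
        finrank K (G.N₀₁ ⧸ Submodule.span R₀₁ {G.r₀ s.1}) := by
  obtain ⟨h1, h2, h3⟩ := euler_hom x₀ hfin₀ hfin₁ (GlueDatum.unit K R₀ R₁ R₀₁) G
    (secHom₀ G s) (secHom₁ G s) (secHom₀₁ G s) (secHom_comm₀ G s) (secHom_comm₁ G s hs)
    (secHom₀₁_ne_zero G s hs0)
  refine ⟨h1, h2, ?_⟩
  have e0 : LinearMap.range (secHom₀ G s) = Submodule.span R₀ {s.1} := range_secHom₀ G s
  have e1 : LinearMap.range (secHom₁ G s) = Submodule.span R₁ {s.2} := range_secHom₁ G s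
  have e01 : LinearMap.range (secHom₀₁ G s) = Submodule.span R₀₁ {G.r₀ s.1} := by
    unfold secHom₀₁
    exact (LinearMap.span_singleton_eq_range R₀₁ G.N₀₁ (G.r₀ s.1)).symm
  rw [e0, e1, e01] at h3
  unfold GlueDatum.degree
  rw [h3]
  ring

include x₀ hfin₀ hfin₁ in
/-- A gluing datum with a nonzero section has degree `≥ 0`. -/
theorem degree_nonneg_of_section (hs : s ∈ G.H0) (hs0 : G.r₀ s.1 ≠ 0)
    [Module.Finite K (GlueDatum.unit K R₀ R₁ R₀₁).H0]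
    [Module.Finite K (GlueDatum.unit K R₀ R₁ R₀₁).H1] : 0 ≤ G.degree := by
  have h := euler_le_of_hom x₀ hfin₀ hfin₁ (GlueDatum.unit K R₀ R₁ R₀₁) G
    (secHom₀ G s) (secHom₁ G s) (secHom₀₁ G s) (secHom_comm₀ G s) (secHom_comm₁ G s hs)
    (secHom₀₁_ne_zero G s hs0)
  unfold GlueDatum.degree
  linarith

include x₀ y₁ hfin₀ hfin₁ in
/-- **D5**: a nonzero section of a gluing datum of degree `0` generates it. -/
theorem span_eq_top_of_section (hs : s ∈ G.H0) (hs0 : G.r₀ s.1 ≠ 0)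
    [Module.Finite K (GlueDatum.unit K R₀ R₁ R₀₁).H0]
    [Module.Finite K (GlueDatum.unit K R₀ R₁ R₀₁).H1] (hdeg : G.degree = 0) :
    Submodule.span R₀ {s.1} = ⊤ ∧ Submodule.span R₁ {s.2} = ⊤ ∧
      Submodule.span R₀₁ {G.r₀ s.1} = ⊤ := by
  have he : G.euler = (GlueDatum.unit K R₀ R₁ R₀₁).euler := by
    unfold GlueDatum.degree at hdeg
    linarith
  obtain ⟨b0, b1, b01⟩ := hom_bijective_of_euler_eq x₀ y₁ hfin₀ hfin₁
    (GlueDatum.unit K R₀ R₁ R₀₁) G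
    (secHom₀ G s) (secHom₁ G s) (secHom₀₁ G s) (secHom_comm₀ G s) (secHom_comm₁ G s hs)
    (secHom₀₁_ne_zero G s hs0) he
  refine ⟨?_, ?_, ?_⟩
  · rw [← range_secHom₀, LinearMap.range_eq_top]
    exact b0.2
  · rw [← range_secHom₁, LinearMap.range_eq_top]
    exact b1.2
  · have e01 : LinearMap.range (secHom₀₁ G s) = Submodule.span R₀₁ {G.r₀ s.1} := by
      unfold secHom₀₁
      exact (LinearMap.span_singleton_eq_range R₀₁ G.N₀₁ (G.r₀ s.1)).symm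
    rw [← e01, LinearMap.range_eq_top]
    exact b01.2

include x₀ y₁ hfin₀ hfin₁ in
/-- **D5**: a gluing datum of degree `0` with a nonzero section is trivial. -/
theorem isIso_unit_of_section (hs : s ∈ G.H0) (hs0 : G.r₀ s.1 ≠ 0)
    [Module.Finite K (GlueDatum.unit K R₀ R₁ R₀₁).H0]
    [Module.Finite K (GlueDatum.unit K R₀ R₁ R₀₁).H1] (hdeg : G.degree = 0) :
    (GlueDatum.unit K R₀ R₁ R₀₁).IsIso G := by
  have he : G.euler = (GlueDatum.unit K R₀ R₁ R₀₁).euler := by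
    unfold GlueDatum.degree at hdeg
    linarith
  exact isIso_of_euler_eq x₀ y₁ hfin₀ hfin₁ (GlueDatum.unit K R₀ R₁ R₀₁) G
    (secHom₀ G s) (secHom₁ G s) (secHom₀₁ G s) (secHom_comm₀ G s) (secHom_comm₁ G s hs)
    (secHom₀₁_ne_zero G s hs0) he

end Field

end Fermat.Agent.S25.H71
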